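/-
MAZUR project, node **[MZ-B]** (helper16).  Prefix `mzb_qi_`.

INTEGRAL MODELS OF THE `q`-EXPANSIONS used by the cusp dictionary, over ANY commutative ring `R`
(functorial in `R` via the prelude's `coeffMap`):

* `mzb_qi_delta R`, `mzb_qi_deltaInv R` : `Δ(q) = q ∏(1-qⁿ)²⁴` and its inverse;
* `mzb_qi_U R p`, `mzb_qi_Uinv R p`     : `U = Δ(q)/Δ(q^p)` and `1/U`;
* `mzb_qi_jinv R`                        : `1/j`  (`j` itself is the prelude's `jqModC R`);
* `mzb_qi_g R p`, `mzb_qi_ginv R p`     : `g = U / j^(p-1)` and `1/g = j^(p-1)/U`.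

`mzb_qi_U ℚ p = modularUnitSeries p` (the prelude's modular unit).  Test series
`mzb_qi_test a Y = C a * Y - 1` over a valuation ring `A` and their two coefficient maps
(`A → ℚ̄`: the function `a Y - 1`; `A → κ`: the constant `-1` when `a ∈ 𝔪`).
-/
import Mathlib
import Fermat.Prelude.Def_ModularCurve_ModularUnit
import Fermat.Prelude.Def_ModularCurve_X0ModL

set_option autoImplicit false

namespace Fermat.Agent.MZ

open HahnSeries ModularCurve

noncomputable section

/-! ### power series with integer coefficients, transported to `R` -/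

section Models

variable (R : Type*) [CommRing R]

/-- `∏ (1 - qⁿ)²⁴` over `R`. -/
def mzb_qi_eta : PowerSeries R := dedekindEtaUnit.map (Int.castRingHom R)

/-- the inverse of `∏ (1 - qⁿ)²⁴` over `R`. -/
def mzb_qi_etaInv : PowerSeries R := dedekindEtaUnitInv.map (Int.castRingHom R)

theorem mzb_qi_eta_mul_inv : mzb_qi_eta R * mzb_qi_etaInv R = 1 := by
  rw [mzb_qi_eta, mzb_qi_etaInv, ← map_mul, dedekindEtaUnit_mul_inv, map_one]

/-- the inverse of the numerator `q · j` of `j`, over `ℤ`. -/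
def mzb_qi_jNumInvZ : PowerSeries ℤ := jNum.invOfUnit 1

theorem mzb_qi_jNum_mul_inv : jNum * mzb_qi_jNumInvZ = 1 :=
  PowerSeries.mul_invOfUnit _ _ (by rw [constantCoeff_jNum]; rfl)

/-- `Δ(q)` over `R`. -/
def mzb_qi_delta : LaurentSeries R :=
  HahnSeries.single (1 : ℤ) 1 * HahnSeries.ofPowerSeries ℤ R (mzb_qi_eta R)

/-- `1/Δ(q)` over `R`. -/
def mzb_qi_deltaInv : LaurentSeries R :=
  HahnSeries.single (-1 : ℤ) 1 * HahnSeries.ofPowerSeries ℤ R (mzb_qi_etaInv R)

theorem mzb_qi_single_mul_single : (HahnSeries.single (1 : ℤ) (1 : R)) * HahnSeries.single (-1 : ℤ) 1 = 1 := by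
  rw [HahnSeries.single_mul_single, mul_one]
  rfl

theorem mzb_qi_delta_mul_inv : mzb_qi_delta R * mzb_qi_deltaInv R = 1 := by
  rw [mzb_qi_delta, mzb_qi_deltaInv, mul_mul_mul_comm, mzb_qi_single_mul_single, one_mul,
    ← map_mul, mzb_qi_eta_mul_inv, map_one]

/-- `1/j` over `R`. -/
def mzb_qi_jinv : LaurentSeries R :=
  HahnSeries.single (1 : ℤ) 1 *
    HahnSeries.ofPowerSeries ℤ R (mzb_qi_jNumInvZ.map (Int.castRingHom R))

theorem mzb_qi_j_mul_inv : jqModC R * mzb_qi_jinv R = 1 := by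
  rw [jqModC, mzb_qi_jinv, mul_mul_mul_comm, mul_comm (HahnSeries.single (-1 : ℤ) (1 : R)),
    mzb_qi_single_mul_single, one_mul, ← map_mul, ← map_mul, mzb_qi_jNum_mul_inv, map_one,
    map_one]

variable (p : ℕ) [NeZero p]

/-- `U = Δ(q)/Δ(q^p)` over `R`. -/
def mzb_qi_U : LaurentSeries R := mzb_qi_delta R * qExpand R p (mzb_qi_deltaInv R)

/-- `1/U = Δ(q^p)/Δ(q)` over `R`. -/
def mzb_qi_Uinv : LaurentSeries R := mzb_qi_deltaInv R * qExpand R p (mzb_qi_delta R)

theorem mzb_qi_U_mul_inv : mzb_qi_U R p * mzb_qi_Uinv R p = 1 := by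
  rw [mzb_qi_U, mzb_qi_Uinv, mul_mul_mul_comm, mzb_qi_delta_mul_inv, one_mul, ← map_mul,
    mul_comm, mzb_qi_delta_mul_inv, map_one]

/-- `g = U / j^(p-1)` over `R`. -/
def mzb_qi_g : LaurentSeries R := mzb_qi_U R p * mzb_qi_jinv R ^ (p - 1)

/-- `1/g = j^(p-1) / U` over `R`. -/
def mzb_qi_ginv : LaurentSeries R := mzb_qi_Uinv R p * jqModC R ^ (p - 1)

theorem mzb_qi_g_mul_inv : mzb_qi_g R p * mzb_qi_ginv R p = 1 := by
  rw [mzb_qi_g, mzb_qi_ginv, mul_mul_mul_comm, mzb_qi_U_mul_inv, one_mul, ← mul_pow, mul_comm,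
    mzb_qi_j_mul_inv, one_pow]

theorem mzb_qi_g_mul_j_pow : mzb_qi_g R p * jqModC R ^ (p - 1) = mzb_qi_U R p := by
  rw [mzb_qi_g, mul_assoc, ← mul_pow, mul_comm (mzb_qi_jinv R), mzb_qi_j_mul_inv, one_pow, mul_one]

end Models

/-! ### functoriality -/

section Functorial

variable {R S : Type*} [CommRing R] [CommRing S] (f : R →+* S)

theorem mzb_qi_map_intCast (u : PowerSeries ℤ) :
    (u.map (Int.castRingHom R)).map f = u.map (Int.castRingHom S) := by
  rw [← RingHom.comp_apply (PowerSeries.map f) (PowerSeries.map (Int.castRingHom R)),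
    ← PowerSeries.map_comp, RingHom.ext_int (f.comp (Int.castRingHom R)) (Int.castRingHom S)]

theorem mzb_qi_coeffMap_delta : coeffMap f (mzb_qi_delta R) = mzb_qi_delta S := by
  rw [mzb_qi_delta, map_mul, coeffMap_single, map_one, coeffMap_ofPowerSeries, mzb_qi_eta,
    mzb_qi_map_intCast]
  rfl

theorem mzb_qi_coeffMap_deltaInv : coeffMap f (mzb_qi_deltaInv R) = mzb_qi_deltaInv S := by
  rw [mzb_qi_deltaInv, map_mul, coeffMap_single, map_one, coeffMap_ofPowerSeries, mzb_qi_etaInv,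
    mzb_qi_map_intCast]
  rfl

theorem mzb_qi_coeffMap_jinv : coeffMap f (mzb_qi_jinv R) = mzb_qi_jinv S := by
  rw [mzb_qi_jinv, map_mul, coeffMap_single, map_one, coeffMap_ofPowerSeries, mzb_qi_map_intCast]
  rfl

variable (p : ℕ) [NeZero p]

theorem mzb_qi_coeffMap_U : coeffMap f (mzb_qi_U R p) = mzb_qi_U S p := by
  rw [mzb_qi_U, map_mul, coeffMap_qExpand, mzb_qi_coeffMap_delta, mzb_qi_coeffMap_deltaInv]
  rfl

theorem mzb_qi_coeffMap_Uinv : coeffMap f (mzb_qi_Uinv R p) = mzb_qi_Uinv S p := by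
  rw [mzb_qi_Uinv, map_mul, coeffMap_qExpand, mzb_qi_coeffMap_delta, mzb_qi_coeffMap_deltaInv]
  rfl

theorem mzb_qi_coeffMap_g : coeffMap f (mzb_qi_g R p) = mzb_qi_g S p := by
  rw [mzb_qi_g, map_mul, map_pow, mzb_qi_coeffMap_U, mzb_qi_coeffMap_jinv]
  rfl

theorem mzb_qi_coeffMap_ginv : coeffMap f (mzb_qi_ginv R p) = mzb_qi_ginv S p := by
  rw [mzb_qi_ginv, map_mul, map_pow, mzb_qi_coeffMap_Uinv, coeffMap_jqModC]
  rfl

end Functorial

/-! ### comparison with the prelude's modular unit -/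

section Prelude

variable (p : ℕ) [NeZero p]

theorem mzb_qi_delta_rat : mzb_qi_delta ℚ = deltaSeries := rfl

theorem mzb_qi_U_rat : mzb_qi_U ℚ p = modularUnitSeries p := by
  rw [modularUnitSeries, mzb_qi_U, mzb_qi_delta_rat]
  congr 1
  refine (eq_inv_of_mul_eq_one_left ?_)
  rw [deltaSeriesN, ← mzb_qi_delta_rat, ← map_mul, mul_comm, mzb_qi_delta_mul_inv, map_one]

/-- the integral model of `U` base-changed to a field `L ⊇ ℚ` is the coefficientwise embedding of
the prelude's `modularUnitSeries p`. -/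
theorem mzb_qi_U_coeffEmb (L : Type*) [Field L] [Algebra ℚ L] :
    mzb_qi_U L p = coeffEmb L (modularUnitSeries p) := by
  rw [← mzb_qi_U_rat, coeffEmb, mzb_qi_coeffMap_U]

theorem mzb_qi_j_coeffEmb (L : Type*) [Field L] [Algebra ℚ L] :
    jqModC L = coeffEmb L jq := by
  rw [← jqModC_rat, coeffEmb, coeffMap_jqModC]

end Prelude

/-! ### test series over a valuation ring -/

section Test

variable {K : Type*} [Field K] (A : ValuationSubring K)

/-- the test series `C a * Y - 1`. -/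
def mzb_qi_test (a : A) (Y : LaurentSeries A) : LaurentSeries A :=
  HahnSeries.single 0 a * Y - 1

theorem mzb_qi_test_subtype (a : A) (Y : LaurentSeries A) :
    coeffMap A.subtype (mzb_qi_test A a Y) =
      HahnSeries.single 0 (a : K) * coeffMap A.subtype Y - 1 := by
  rw [mzb_qi_test, map_sub, map_mul, coeffMap_single, map_one]
  rfl

theorem mzb_qi_test_residue (a : A) (Y : LaurentSeries A)
    (ha : IsLocalRing.residue A a = 0) :
    coeffMap (IsLocalRing.residue A) (mzb_qi_test A a Y) = -1 := by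
  rw [mzb_qi_test, map_sub, map_mul, coeffMap_single, ha, HahnSeries.single_eq_zero, zero_mul,
    map_one, zero_sub]

end Test

end

end Fermat.Agent.MZ
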