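/-
MAZUR project, node **[MZ-B]**, cell (B-ell) (helper16).  Prefix `mzb_el_`.  DEFINITIONS shared by
[MZ-A] (the modular point `x` of `(E, ⟨Q⟩)`) and [MZ-B] (the cusp dictionary).

For `W : WeierstrassCurve ℤ` and a point `Q` of `W` over `ℚ̄` (the types of the frozen statement
S15):

* `mzb_el_psi2 W P = 2y + a₁x + a₃` for `P = (x, y)`, `0` at the origin;
* `mzb_el_U0 W p Q = p¹² · (∏_{k=1}^{p-1} ψ₂(k • Q))⁴ / Δ^(p-1)`: the value of the modular unit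
  `Δ(q)/Δ(q^p)` at the modular point of `(W, ⟨Q⟩)`;
* `mzb_el_j0 W = c₄³ / Δ`.

Galois equivariance of `ψ₂`, and rationality of `U0` for a `G_ℚ`-fixed `Q`.
-/
import Mathlib
import Fermat.Prelude.Def_EllipticCurve_ZeroComponentAt

set_option autoImplicit false

namespace Fermat.Agent.MZ

open WeierstrassCurve WeierstrassCurve.Affine WeierstrassCurve.Affine.Point

/-- the points of `W` over `ℚ̄` (the type of `Q` in the frozen statement S15). -/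
abbrev mzb_el_E (W : WeierstrassCurve ℤ) : Type :=
  ((W.map (Int.castRingHom ℚ))⁄(AlgebraicClosure ℚ)).Point

/-- `ψ₂ = 2y + a₁x + a₃` at an affine point, `0` at the origin. -/
noncomputable def mzb_el_psi2 (W : WeierstrassCurve ℤ) : mzb_el_E W → AlgebraicClosure ℚ
  | .zero => 0
  | .some x y _ =>
    2 * y + ((W.a₁ : ℤ) : AlgebraicClosure ℚ) * x + ((W.a₃ : ℤ) : AlgebraicClosure ℚ)

/-- the value of the modular unit `Δ(q)/Δ(q^p)` at the modular point of `(W, ⟨Q⟩)`: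
`p¹² · (∏_{k=1}^{p-1} ψ₂(k • Q))⁴ / Δ^(p-1)`. -/
noncomputable def mzb_el_U0 (W : WeierstrassCurve ℤ) (p : ℕ) (Q : mzb_el_E W) :
    AlgebraicClosure ℚ :=
  (p : AlgebraicClosure ℚ) ^ 12 * (∏ k ∈ Finset.Ico 1 p, mzb_el_psi2 W (k • Q)) ^ 4 /
    ((W.Δ : ℤ) : AlgebraicClosure ℚ) ^ (p - 1)

/-- the `j`-invariant `c₄³ / Δ` as an element of `ℚ̄`. -/
noncomputable def mzb_el_j0 (W : WeierstrassCurve ℤ) : AlgebraicClosure ℚ :=
  ((W.c₄ : ℤ) : AlgebraicClosure ℚ) ^ 3 / ((W.Δ : ℤ) : AlgebraicClosure ℚ)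

variable (W : WeierstrassCurve ℤ)

@[simp] theorem mzb_el_psi2_zero : mzb_el_psi2 W (0 : mzb_el_E W) = 0 := rfl

theorem mzb_el_psi2_some {x y : AlgebraicClosure ℚ}
    (h : ((W.map (Int.castRingHom ℚ))⁄(AlgebraicClosure ℚ)).toAffine.Nonsingular x y) :
    mzb_el_psi2 W (Point.some x y h) =
      2 * y + ((W.a₁ : ℤ) : AlgebraicClosure ℚ) * x + ((W.a₃ : ℤ) : AlgebraicClosure ℚ) := rfl

/-- the coefficients of the base-changed curve. -/
theorem mzb_el_a₁ : ((W.map (Int.castRingHom ℚ))⁄(AlgebraicClosure ℚ)).a₁ =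
    ((W.a₁ : ℤ) : AlgebraicClosure ℚ) := by
  simp

theorem mzb_el_a₃ : ((W.map (Int.castRingHom ℚ))⁄(AlgebraicClosure ℚ)).a₃ =
    ((W.a₃ : ℤ) : AlgebraicClosure ℚ) := by
  simp

/-- `ψ₂(x, y) = y - negY x y`. -/
theorem mzb_el_psi2_some' {x y : AlgebraicClosure ℚ}
    (h : ((W.map (Int.castRingHom ℚ))⁄(AlgebraicClosure ℚ)).toAffine.Nonsingular x y) :
    mzb_el_psi2 W (Point.some x y h) =
      y - ((W.map (Int.castRingHom ℚ))⁄(AlgebraicClosure ℚ)).toAffine.negY x y := by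
  rw [mzb_el_psi2_some, negY, mzb_el_a₁, mzb_el_a₃]
  ring

/-- Galois equivariance of `ψ₂`. -/
theorem mzb_el_psi2_smul (σ : AlgebraicClosure ℚ ≃ₐ[ℚ] AlgebraicClosure ℚ) (P : mzb_el_E W) :
    mzb_el_psi2 W (σ • P) = σ (mzb_el_psi2 W P) := by
  rcases P with _ | ⟨x, y, h⟩
  · show mzb_el_psi2 W (0 : mzb_el_E W) = σ (mzb_el_psi2 W (0 : mzb_el_E W))
    rw [mzb_el_psi2_zero, _root_.map_zero]
  · rw [algEquiv_smul_def, Point.map_some, mzb_el_psi2_some, mzb_el_psi2_some]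
    simp only [AlgEquiv.coe_toAlgHom, map_add, map_mul, map_ofNat, map_intCast]

theorem mzb_el_smul_nsmul (σ : AlgebraicClosure ℚ ≃ₐ[ℚ] AlgebraicClosure ℚ) (k : ℕ)
    (P : mzb_el_E W) : σ • (k • P) = k • (σ • P) :=
  map_nsmul (Point.map (W' := W.map (Int.castRingHom ℚ)) σ.toAlgHom) k P

/-- `U0` of a `G_ℚ`-fixed point is fixed by `G_ℚ`. -/
theorem mzb_el_U0_fixed (p : ℕ) (Q : mzb_el_E W)
    (hQfix : ∀ σ : AlgebraicClosure ℚ ≃ₐ[ℚ] AlgebraicClosure ℚ, σ • Q = Q)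
    (σ : AlgebraicClosure ℚ ≃ₐ[ℚ] AlgebraicClosure ℚ) :
    σ (mzb_el_U0 W p Q) = mzb_el_U0 W p Q := by
  unfold mzb_el_U0
  rw [map_div₀, map_mul, map_pow, map_pow, map_pow, map_natCast, map_intCast, map_prod]
  congr 3
  refine Finset.prod_congr rfl fun k _ => ?_
  rw [← mzb_el_psi2_smul, mzb_el_smul_nsmul, hQfix]

/-- `U0` of a `G_ℚ`-fixed point is rational. -/
theorem mzb_el_U0_rational (p : ℕ) (Q : mzb_el_E W)
    (hQfix : ∀ σ : AlgebraicClosure ℚ ≃ₐ[ℚ] AlgebraicClosure ℚ, σ • Q = Q) :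
    ∃ u : ℚ, algebraMap ℚ (AlgebraicClosure ℚ) u = mzb_el_U0 W p Q := by
  have _ : IsAlgClosure ℚ (AlgebraicClosure ℚ) := ⟨inferInstance, AlgebraicClosure.isAlgebraic ℚ⟩
  have _ : IsGalois ℚ (AlgebraicClosure ℚ) := inferInstance
  exact (InfiniteGalois.mem_range_algebraMap_iff_fixed _).mpr (mzb_el_U0_fixed W p Q hQfix)

/-- `j0` is rational. -/
theorem mzb_el_j0_rational :
    algebraMap ℚ (AlgebraicClosure ℚ) (((W.c₄ : ℤ) : ℚ) ^ 3 / ((W.Δ : ℤ) : ℚ)) = mzb_el_j0 W := by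
  unfold mzb_el_j0
  rw [map_div₀, map_pow, map_intCast, map_intCast]

end Fermat.Agent.MZ
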