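/-
MAZUR project, node **[MZ-B]** (owner helper16).  Prefix `mzb_` / `mza_`.  THE SEAMS OF [MZ-B].

Vocabulary (`Qbar = ℚ̄`, `F̄_p = modularFunctionFieldBar p`):
* `mzb_jB p : F̄_p`                 the function `j` (`q`-expansion `jqModC ℚ̄ = coeffEmb ℚ̄ jq`);
* `mzb_Umem p : Prop`              `U = Δ(q)/Δ(q^p) ∈ F̄_p` (`q`-expansion `mzb_qi_U ℚ̄ p =
                                    coeffEmb ℚ̄ (modularUnitSeries p)`);
* `mzb_UB p hU : F̄_p`             the modular unit.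

Seams:
* `mza_stmt`       **[MZ-A]** (helper25): the modular point: a place `x` of `F̄_p` at which `j` takes
                   the value `j0(W)` and `U` the value `U0(W, Q)` (`mzb_el_j0`, `mzb_el_U0`).
* `mzb_CD_stmt C`  **[MZ-C']** (helper10): the cusp data: `U ∈ F̄_p`; the poles of `U` are at `∞`,
                   its zeros at `0`; the poles of `j` are at the two cusps; `ord_∞ j = -1`,
                   `ord_∞ U = 1 - p`, `ord_0 j < 0`, `ord_0 U > 0`.
[MZ-B] delivers `mzb_main : mza_stmt → mzb_CD_stmt C → mzt_C_stmt C → mzt_AB_stmt C`.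
-/
import Mathlib
import Fermat.Agent.MZ.Top.Seams
import Fermat.Agent.MZ.B.EllDefs
import Fermat.Agent.MZ.B.QInt

set_option autoImplicit false

noncomputable section

open ModularCurve AlgebraicCurve

namespace Fermat.Agent.MZ

local notation "Qbar" => AlgebraicClosure ℚ

/-- `j ∈ F̄_p`. -/
theorem mzb_j_mem (p : ℕ) [NeZero p] : jqModC Qbar ∈ modularFunctionFieldBar p := by
  rw [mzb_qi_j_coeffEmb]
  refine coeffEmb_mem_laurentBaseChange Qbar ?_
  have h := jqd_mem_full p (one_dvd p)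
  rwa [qExpand_one_apply] at h

/-- the function `j` as an element of `F̄_p`. -/
def mzb_jB (p : ℕ) [NeZero p] : modularFunctionFieldBar p := ⟨jqModC Qbar, mzb_j_mem p⟩

/-- `U = Δ(q)/Δ(q^p)` belongs to `F̄_p`. -/
def mzb_Umem (p : ℕ) [NeZero p] : Prop := mzb_qi_U Qbar p ∈ modularFunctionFieldBar p

/-- the modular unit `U = Δ(q)/Δ(q^p)` as an element of `F̄_p`. -/
def mzb_UB (p : ℕ) [NeZero p] (hU : mzb_Umem p) : modularFunctionFieldBar p :=
  ⟨mzb_qi_U Qbar p, hU⟩

@[simp] theorem mzb_coe_jB (p : ℕ) [NeZero p] :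
    ((mzb_jB p : modularFunctionFieldBar p) : LaurentSeries Qbar) = jqModC Qbar := rfl

@[simp] theorem mzb_coe_UB (p : ℕ) [NeZero p] (hU : mzb_Umem p) :
    ((mzb_UB p hU : modularFunctionFieldBar p) : LaurentSeries Qbar) = mzb_qi_U Qbar p := rfl

/-- **[MZ-A]** the modular point of `(W, ⟨Q⟩)`: a place of `ℚ̄(X₀(p))` at which `j` takes the value
`j(W)` and the modular unit `U` the value `U0(W, Q)`. -/
def mza_stmt : Prop :=
  ∀ (p : ℕ) [NeZero p], p.Prime → p ≠ 2 → ∀ hU : mzb_Umem p,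
    ∀ (W : WeierstrassCurve ℤ), W.Δ ≠ 0 → ∀ Q : mzb_el_E W, addOrderOf Q = p →
    ∃ x : Place Qbar (modularFunctionFieldBar p),
      0 < x.ord (mzb_jB p - algebraMap Qbar (modularFunctionFieldBar p) (mzb_el_j0 W)) ∧
      0 < x.ord (mzb_UB p hU - algebraMap Qbar (modularFunctionFieldBar p) (mzb_el_U0 W p Q))

/-- **[MZ-C']** the cusp data used by the dictionary. -/
def mzb_CD_stmt (C : ∀ p : ℕ, mzt_Cusps p) : Prop :=
  ∀ (p : ℕ) [NeZero p], p.Prime → p ∉ ({2, 3, 5, 7, 13} : Finset ℕ) →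
    ∃ hU : mzb_Umem p,
      (∀ P : Place Qbar (modularFunctionFieldBar p), P.ord (mzb_UB p hU) < 0 → P = (C p).inf) ∧
      (∀ P : Place Qbar (modularFunctionFieldBar p), 0 < P.ord (mzb_UB p hU) → P = (C p).zero) ∧
      (∀ P : Place Qbar (modularFunctionFieldBar p), P.ord (mzb_jB p) < 0 →
        P = (C p).inf ∨ P = (C p).zero) ∧
      (C p).inf.ord (mzb_jB p) = -1 ∧
      (C p).inf.ord (mzb_UB p hU) = 1 - (p : ℤ) ∧
      (C p).zero.ord (mzb_jB p) < 0 ∧
      0 < (C p).zero.ord (mzb_UB p hU)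

end Fermat.Agent.MZ
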