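/-
MAZUR project, node **[MZ-B]** (helper16).  Prefix `mzb_ra_`.

THE ABSTRACT ENGINE of the cusp dictionary: consequences of the prelude's `IsPlaceReductionAlong`
for test functions whose reduction is the constant `-1`.

* `mzb_ra_mapDomain_eq_zero` : `y` an `A`-integral `q`-expansion in the function field with
  `coeffMap π y = -1`, `D = div(y)` ⟹ `mapDomain r D = 0`.
* `mzb_ra_eq_of_pos` : `mapDomain r D = 0`, `D x > 0`, all negative coefficients of `D` at `P0`
  ⟹ `r x = r P0`.
* `mzb_ra_unique` : `mapDomain r D = 0`, `D P0 = -1`, no other negative coefficient over `r P0`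
  ⟹ at most one `x` with `D x > 0` and `r x = r P0`.
-/
import Mathlib
import Fermat.Prelude.Def_ModularCurve_ReductionModL
import Fermat.Agent.S24.Hurwitz.Places

set_option autoImplicit false

noncomputable section

open ModularCurve AlgebraicCurve HahnSeries

namespace Fermat.Agent.MZ

section Comb

variable {α β : Type*} (r : α → β) (D : α →₀ ℤ)

theorem mzb_ra_mapDomain_apply [DecidableEq β] (R : β) :
    Finsupp.mapDomain r D R = ∑ a ∈ D.support, (if r a = R then D a else 0) := by
  rw [Finsupp.mapDomain, Finsupp.sum_apply, Finsupp.sum]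
  refine Finset.sum_congr rfl fun a _ => ?_
  rw [Finsupp.single_apply]

/-- `mapDomain r D = 0`, `D x > 0` and all negative coefficients of `D` are at `P0`: `r x = r P0`. -/
theorem mzb_ra_eq_of_pos (h : Finsupp.mapDomain r D = 0) {x P0 : α} (hx : 0 < D x)
    (hneg : ∀ P, D P < 0 → P = P0) : r x = r P0 := by
  classical
  by_contra hne
  have h1 : Finsupp.mapDomain r D (r x) = 0 := by rw [h]; rfl
  rw [mzb_ra_mapDomain_apply] at h1
  have hpos : 0 < ∑ a ∈ D.support, (if r a = r x then D a else 0) := by
    refine Finset.sum_pos' (fun a _ => ?_) ⟨x, Finsupp.mem_support_iff.mpr hx.ne', ?_⟩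
    · split_ifs with ha
      · by_contra hlt
        rw [not_le] at hlt
        have := hneg a hlt
        subst this
        exact hne ha.symm
      · exact le_refl 0
    · rw [if_pos rfl]; exact hx
  omega

/-- `mapDomain r D = 0`, `D P0 = -1` and no other negative coefficient of `D` lies over `r P0`:
at most one `x` with `D x > 0` lies over `r P0`. -/
theorem mzb_ra_unique (h : Finsupp.mapDomain r D = 0) {x x' P0 : α} (hP0 : D P0 = -1)
    (hneg : ∀ P, D P < 0 → r P = r P0 → P = P0) (hx : 0 < D x) (hx' : 0 < D x')
    (hrx : r x = r P0) (hrx' : r x' = r P0) : x = x' := by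
  classical
  by_contra hne
  have h1 : Finsupp.mapDomain r D (r P0) = 0 := by rw [h]; rfl
  rw [mzb_ra_mapDomain_apply] at h1
  have hxP0 : x ≠ P0 := by rintro rfl; omega
  have hx'P0 : x' ≠ P0 := by rintro rfl; omega
  set g : α → ℤ := fun a => if r a = r P0 then D a else 0 with hg
  have hsub : ({P0, x, x'} : Finset α) ⊆ D.support := by
    intro a ha
    simp only [Finset.mem_insert, Finset.mem_singleton] at ha
    rw [Finsupp.mem_support_iff]
    rcases ha with rfl | rfl | rfl <;> omega
  have hle : ∑ a ∈ ({P0, x, x'} : Finset α), g a ≤ ∑ a ∈ D.support, g a := by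
    refine Finset.sum_le_sum_of_subset_of_nonneg hsub fun a _ ha => ?_
    simp only [Finset.mem_insert, Finset.mem_singleton, not_or] at ha
    show 0 ≤ (if r a = r P0 then D a else 0)
    split_ifs with hra
    · by_contra hlt
      rw [not_le] at hlt
      exact ha.1 (hneg a hlt hra)
    · exact le_refl 0
  have hsum : ∑ a ∈ ({P0, x, x'} : Finset α), g a = D P0 + (D x + D x') := by
    rw [Finset.sum_insert (by simp [Ne.symm hxP0, Ne.symm hx'P0]),
      Finset.sum_insert (by simpa using hne), Finset.sum_singleton]
    simp only [hg, if_pos hrx, if_pos hrx', if_true]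
  have : ∑ a ∈ D.support, g a = 0 := h1
  omega

end Comb

section Engine

variable {L : Type*} [Field L] [Algebra ℚ L] {A : ValuationSubring L}
variable {k : Type*} [Field k] {π : A →+* k} {N : ℕ}
variable {r : Place L (laurentBaseChange L (modularFunctionFieldFull N)) →
  Place k (modularFunctionFieldFullC k N)}

/-- a test function with reduction `-1` has `mapDomain r (div y) = 0`. -/
theorem mzb_ra_mapDomain_eq_zero (hr : IsPlaceReductionAlong A π N r) (y : LaurentSeries A)
    (hy : coeffMap A.subtype y ∈ laurentBaseChange L (modularFunctionFieldFull N))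
    (hred : coeffMap π y = -1)
    (D : Divisor L (laurentBaseChange L (modularFunctionFieldFull N)))
    (hD : ∀ P, D P = P.ord
      (⟨coeffMap A.subtype y, hy⟩ : laurentBaseChange L (modularFunctionFieldFull N))) :
    Finsupp.mapDomain r D = 0 := by
  have hyk : coeffMap π y ∈ modularFunctionFieldFullC k N := by
    rw [hred]; exact neg_mem (one_mem _)
  have hne : coeffMap π y ≠ 0 := by
    rw [hred]; exact neg_ne_zero.mpr one_ne_zero
  ext Q
  rw [hr.2 y hy hyk hne D hD Q, Finsupp.zero_apply]
  have h1 : (⟨coeffMap π y, hyk⟩ : modularFunctionFieldFullC k N) = -1 := Subtype.ext hred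
  rw [h1, Fermat.Agent.S24.hw_ord_neg, Place.ord_one]

end Engine

end Fermat.Agent.MZ
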