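/-
MAZUR project, node **[MZ-B]** (helper16).  Prefix `mzb_dc_`.

THE MODULAR HALF OF THE CUSP DICTIONARY, from the prelude's abstract `IsPlaceReductionAlong` only
(test functions with constant reduction `-1`; nothing about the special fibre is used).

`A` a valuation subring of `ℚ̄`, `h : ReductionInputsModL A p`, `r = placeReductionModL h`,
`v = A.valuation` (multiplicative).
* `mzb_dc_dir1` : `U` has its poles only at `∞`, `v(u0) > 1`, `U(x) = u0` ⟹ `r x = r ∞`.
* `mzb_dc_dir2` : `g = U/j^(p-1)` has its zeros only at `0`, `c0 ≠ 0`, `v(c0) < 1`, `g(x) = c0`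
  ⟹ `r x = r 0`.
* `mzb_dc_unique` : `j` has its poles at `∞` (simple) and `0`, `r 0 ≠ r ∞`, `v(j0) > 1`:
  at most one place `x` with `j(x) = j0` has `r x = r ∞`.
-/
import Mathlib
import Fermat.Agent.MZ.B.Seams
import Fermat.Agent.MZ.B.RedAbs
import Fermat.Agent.JT3.PlaceMap.Value

set_option autoImplicit false
set_option linter.unusedSectionVars false

noncomputable section

open ModularCurve AlgebraicCurve HahnSeries IsLocalRing
open Fermat.Agent.S24 Fermat.Agent.JT3

namespace Fermat.Agent.MZ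

/-! ### places: orders of `f - c` -/

section Places

variable {K F : Type*} [Field K] [Field F] [Algebra K F] (P : Place K F)

theorem mzb_dc_ne_zero_of_ord_ne {f : F} (h : P.ord f ≠ 0) : f ≠ 0 := by
  rintro rfl
  exact h P.ord_zero

/-- a pole of `f - c` is a pole of `f`. -/
theorem mzb_dc_ord_neg_of_sub_const {f : F} {c : K} (h : P.ord (f - algebraMap K F c) < 0) :
    P.ord f < 0 := by
  by_contra hge
  rw [not_lt] at hge
  have hne : f - algebraMap K F c ≠ 0 := mzb_dc_ne_zero_of_ord_ne P h.ne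
  have hfmem : f ∈ P.toValuationSubring := by
    rcases eq_or_ne f 0 with rfl | hf
    · exact P.toValuationSubring.zero_mem
    · exact (hw_mem_iff_ord_nonneg P hf).mpr hge
  have hmem : f - algebraMap K F c ∈ P.toValuationSubring :=
    P.toValuationSubring.sub_mem hfmem (P.algebraMap_mem' c)
  have := (hw_mem_iff_ord_nonneg P hne).mp hmem
  omega

/-- at a pole of `f`, `ord (f - c) = ord f`. -/
theorem mzb_dc_ord_sub_const_of_neg {f : F} (c : K) (h : P.ord f < 0) :
    P.ord (f - algebraMap K F c) = P.ord f := by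
  have hf : f ≠ 0 := mzb_dc_ne_zero_of_ord_ne P h.ne
  rcases eq_or_ne c 0 with rfl | hc
  · rw [map_zero, sub_zero]
  · have hc' : -algebraMap K F c ≠ 0 := neg_ne_zero.mpr (by simpa using hc)
    rw [sub_eq_add_neg]
    refine hw_ord_add_eq_of_lt P hf hc' ?_
    rw [hw_ord_neg, hw_ord_algebraMap]
    exact h

/-- where `f - c` vanishes (`c ≠ 0`), `ord f = 0`. -/
theorem mzb_dc_ord_eq_zero_of_sub_const {f : F} {c : K} (hc : c ≠ 0)
    (h : 0 < P.ord (f - algebraMap K F c)) : P.ord f = 0 := by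
  have hne : f - algebraMap K F c ≠ 0 := mzb_dc_ne_zero_of_ord_ne P h.ne'
  have hc' : algebraMap K F c ≠ 0 := by simpa using hc
  have h1 : f = algebraMap K F c + (f - algebraMap K F c) := by ring
  rw [h1, hw_ord_add_eq_of_lt P hc' hne (by rw [hw_ord_algebraMap]; exact h), hw_ord_algebraMap]

/-- `0 < ord (f - c)` gives the value `c`. -/
theorem mzb_dc_hasValue_of_ord_pos {f : F} {c : K} (h : 0 < P.ord (f - algebraMap K F c)) :
    rp_HasValue P f c := by
  have hne : f - algebraMap K F c ≠ 0 := mzb_dc_ne_zero_of_ord_ne P h.ne'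
  rw [rp_HasValue, ValuationSubring.mem_nonunits_iff]
  have h1 := (hw_ord_pos_iff P hne).mp h
  by_contra hge
  rw [not_lt] at hge
  apply h1
  rw [← ValuationSubring.valuation_le_one_iff, map_inv₀]
  exact inv_le_one_of_one_le₀ hge

/-- the value `c` of a function `f ≠ c` gives `0 < ord (f - c)`. -/
theorem mzb_dc_ord_pos_of_hasValue {f : F} {c : K} (h : rp_HasValue P f c)
    (hne : f - algebraMap K F c ≠ 0) : 0 < P.ord (f - algebraMap K F c) := by
  rw [hw_ord_pos_iff P hne]
  rw [rp_HasValue, ValuationSubring.mem_nonunits_iff] at h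
  intro hmem
  rw [← ValuationSubring.valuation_le_one_iff, map_inv₀] at hmem
  have h0 : P.toValuationSubring.valuation (f - algebraMap K F c) ≠ 0 := by
    rwa [Ne, Valuation.zero_iff]
  have := (inv_le_one₀ (zero_lt_iff.mpr h0)).mp hmem
  exact absurd h (not_lt.mpr this)

theorem mzb_dc_hasValue_pow {f : F} {c : K} (h : rp_HasValue P f c) (n : ℕ) :
    rp_HasValue P (f ^ n) (c ^ n) := by
  induction n with
  | zero =>
    rw [pow_zero, pow_zero]
    have := rp_hasValue_const (P := P) (1 : K)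
    rwa [map_one] at this
  | succ n ih => rw [pow_succ, pow_succ]; exact ih.mul h

end Places

/-! ### the dictionary -/

section Dict

set_option synthInstance.maxHeartbeats 400000
set_option maxHeartbeats 1000000

local notation "Qbar" => AlgebraicClosure ℚ

variable {p : ℕ} [NeZero p] {A : ValuationSubring Qbar}

local notation "Fb" => modularFunctionFieldBar p

omit [NeZero p] in
/-- the coercion of a constant of `F̄_p` to a Laurent series. -/
theorem mzb_dc_coe_const (c : Qbar) :
    ((algebraMap Qbar (modularFunctionFieldBar p) c : modularFunctionFieldBar p) :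
      LaurentSeries Qbar) = HahnSeries.single 0 c := by
  rw [← algebraMap_laurentSeries_eq_single]; rfl

/-- an element of `ℚ̄` of valuation `< 1`, as an element of `A` with residue `0`. -/
theorem mzb_dc_small {c : Qbar} (hc : A.valuation c < 1) :
    ∃ a : A, (a : Qbar) = c ∧ residue A a = 0 := by
  have hmem : c ∈ A := (A.valuation_le_one_iff c).mp hc.le
  refine ⟨⟨c, hmem⟩, rfl, ?_⟩
  rw [residue_eq_zero_iff, A.valuation_lt_one_iff]
  exact hc

/-- the engine for a function `f = c * Y - 1` of `F̄_p` with `v(c) < 1`, `Y` having an integral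
`q`-expansion `YA`: the push-forward of `div f` vanishes. -/
theorem mzb_dc_engine (h : ReductionInputsModL A p) {c : Qbar} (hc : A.valuation c < 1)
    (YA : LaurentSeries A) (Y : modularFunctionFieldBar p)
    (hY : coeffMap A.subtype YA = (Y : LaurentSeries Qbar))
    (D : Divisor Qbar (modularFunctionFieldBar p))
    (hD : ∀ P, D P = P.ord (algebraMap Qbar (modularFunctionFieldBar p) c * Y - 1)) :
    Finsupp.mapDomain (placeReductionModL h) D = 0 := by
  obtain ⟨a, hac, hares⟩ := mzb_dc_small hc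
  set f : modularFunctionFieldBar p := algebraMap Qbar (modularFunctionFieldBar p) c * Y - 1
    with hf
  have hyf : coeffMap A.subtype (mzb_qi_test A a YA) = (f : LaurentSeries Qbar) := by
    rw [mzb_qi_test_subtype, hY, hac]
    show _ = ((algebraMap Qbar (modularFunctionFieldBar p) c : modularFunctionFieldBar p) :
      LaurentSeries Qbar) * (Y : LaurentSeries Qbar) - 1
    rw [mzb_dc_coe_const]
  have hy : coeffMap A.subtype (mzb_qi_test A a YA) ∈ modularFunctionFieldBar p := by
    rw [hyf]; exact f.2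
  refine mzb_ra_mapDomain_eq_zero (isPlaceReductionModL_placeReductionModL h)
    (mzb_qi_test A a YA) hy (mzb_qi_test_residue A a YA hares) D fun P => ?_
  rw [hD P]
  congr 1
  exact Subtype.ext hyf.symm

variable (hU : mzb_Umem p)

/-- the `q`-expansion of `U` over `A` maps to `U`. -/
theorem mzb_dc_U_model : coeffMap A.subtype (mzb_qi_U A p) =
    ((mzb_UB p hU : modularFunctionFieldBar p) : LaurentSeries Qbar) := by
  rw [mzb_qi_coeffMap_U]; rfl

theorem mzb_dc_j_model : coeffMap A.subtype (jqModC A) =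
    ((mzb_jB p : modularFunctionFieldBar p) : LaurentSeries Qbar) := by
  rw [coeffMap_jqModC]; rfl

/-- `g = U / j^(p-1)` as an element of `F̄_p`. -/
def mzb_gB : modularFunctionFieldBar p := mzb_UB p hU * ((mzb_jB p)⁻¹) ^ (p - 1)

theorem mzb_dc_jB_ne_zero : mzb_jB p ≠ 0 := by
  intro h
  have h1 : (jqModC Qbar) = 0 := congrArg Subtype.val h
  exact jqModC_ne_zero_of_nontrivial Qbar h1

theorem mzb_dc_UB_ne_zero : mzb_UB p hU ≠ 0 := by
  intro h
  have h1 : mzb_qi_U Qbar p = 0 := congrArg Subtype.val h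
  have h2 := mzb_qi_U_mul_inv Qbar p
  rw [h1, zero_mul] at h2
  exact zero_ne_one h2

theorem mzb_dc_gB_ne_zero : mzb_gB hU ≠ 0 :=
  mul_ne_zero (mzb_dc_UB_ne_zero hU) (pow_ne_zero _ (inv_ne_zero mzb_dc_jB_ne_zero))

/-- the `q`-expansion of `1/g` over `A` maps to `g⁻¹`. -/
theorem mzb_dc_ginv_model : coeffMap A.subtype (mzb_qi_ginv A p) =
    (((mzb_gB hU)⁻¹ : modularFunctionFieldBar p) : LaurentSeries Qbar) := by
  rw [mzb_qi_coeffMap_ginv]
  have hj : ((mzb_jB p)⁻¹ : modularFunctionFieldBar p).1 = mzb_qi_jinv Qbar := by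
    show ((mzb_jB p : modularFunctionFieldBar p) : LaurentSeries Qbar)⁻¹ = _
    rw [mzb_coe_jB]
    exact (eq_inv_of_mul_eq_one_right (mzb_qi_j_mul_inv Qbar)).symm
  have hg : ((mzb_gB hU : modularFunctionFieldBar p) : LaurentSeries Qbar) = mzb_qi_g Qbar p := by
    show ((mzb_UB p hU : modularFunctionFieldBar p) : LaurentSeries Qbar) *
      (((mzb_jB p)⁻¹ : modularFunctionFieldBar p) : LaurentSeries Qbar) ^ (p - 1) = _
    rw [hj]; rfl
  show _ = ((mzb_gB hU : modularFunctionFieldBar p) : LaurentSeries Qbar)⁻¹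
  rw [hg]
  exact eq_inv_of_mul_eq_one_right (mzb_qi_g_mul_inv Qbar p)

/-- **Dir1**: `U` has its poles only at `inf`, `v(u0) > 1`, `U(x) = u0` ⟹ `r x = r inf`. -/
theorem mzb_dc_dir1 (h : ReductionInputsModL A p)
    {inf : Place Qbar (modularFunctionFieldBar p)}
    (hpoles : ∀ P : Place Qbar (modularFunctionFieldBar p), P.ord (mzb_UB p hU) < 0 → P = inf)
    {u0 : Qbar} (hu0 : 1 < A.valuation u0) {x : Place Qbar (modularFunctionFieldBar p)}
    (hx : 0 < x.ord (mzb_UB p hU - algebraMap Qbar (modularFunctionFieldBar p) u0)) :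
    placeReductionModL h x = placeReductionModL h inf := by
  have hu0ne : u0 ≠ 0 := by
    rintro rfl
    rw [map_zero] at hu0
    exact absurd hu0 (not_lt.mpr zero_le_one)
  have hinv : A.valuation u0⁻¹ < 1 := by
    rw [map_inv₀]; exact inv_lt_one_of_one_lt₀ hu0
  set f : Fb := algebraMap Qbar Fb u0⁻¹ * mzb_UB p hU - 1 with hf
  have hsub_ne : mzb_UB p hU - algebraMap Qbar Fb u0 ≠ 0 := mzb_dc_ne_zero_of_ord_ne x hx.ne'
  have hcne : algebraMap Qbar Fb u0⁻¹ ≠ 0 := by simpa using hu0ne
  have hf' : f = algebraMap Qbar Fb u0⁻¹ * (mzb_UB p hU - algebraMap Qbar Fb u0) := by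
    rw [hf, mul_sub, ← map_mul, inv_mul_cancel₀ hu0ne, map_one]
  have hfne : f ≠ 0 := by rw [hf']; exact mul_ne_zero hcne hsub_ne
  obtain ⟨D, hD, -⟩ := (est_riemann_fbar p).prin f hfne
  have hDord : ∀ P, D P = P.ord (mzb_UB p hU - algebraMap Qbar Fb u0) := by
    intro P
    rw [hD, hf', P.ord_mul hcne hsub_ne, hw_ord_algebraMap, zero_add]
  have h0 := mzb_dc_engine h hinv (mzb_qi_U A p) (mzb_UB p hU) (mzb_dc_U_model hU) D hD
  refine mzb_ra_eq_of_pos _ D h0 (by rw [hDord]; exact hx) fun P hP => hpoles P ?_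
  rw [hDord] at hP
  exact mzb_dc_ord_neg_of_sub_const P hP

/-- **Dir2**: `g = U/j^(p-1)` has its zeros only at `zero`, `c0 ≠ 0`, `v(c0) < 1`, `g(x) = c0`
⟹ `r x = r zero`. -/
theorem mzb_dc_dir2 (h : ReductionInputsModL A p)
    {zero : Place Qbar (modularFunctionFieldBar p)}
    (hzeros : ∀ P : Place Qbar (modularFunctionFieldBar p), 0 < P.ord (mzb_gB hU) → P = zero)
    {c0 : Qbar} (hc0 : c0 ≠ 0) (hv : A.valuation c0 < 1)
    {x : Place Qbar (modularFunctionFieldBar p)}
    (hx : 0 < x.ord (mzb_gB hU - algebraMap Qbar (modularFunctionFieldBar p) c0)) :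
    placeReductionModL h x = placeReductionModL h zero := by
  set g : Fb := mzb_gB hU with hg
  have hgne : g ≠ 0 := mzb_dc_gB_ne_zero hU
  set f : Fb := algebraMap Qbar Fb c0 * g⁻¹ - 1 with hf
  have hsub_ne : g - algebraMap Qbar Fb c0 ≠ 0 := mzb_dc_ne_zero_of_ord_ne x hx.ne'
  have hf' : f = -(g - algebraMap Qbar Fb c0) * g⁻¹ := by
    rw [hf]; field_simp; ring
  have hfne : f ≠ 0 := by
    rw [hf']; exact mul_ne_zero (neg_ne_zero.mpr hsub_ne) (inv_ne_zero hgne)
  obtain ⟨D, hD, -⟩ := (est_riemann_fbar p).prin f hfne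
  have hDord : ∀ P, D P = P.ord (g - algebraMap Qbar Fb c0) - P.ord g := by
    intro P
    rw [hD, hf', P.ord_mul (neg_ne_zero.mpr hsub_ne) (inv_ne_zero hgne), hw_ord_neg, P.ord_inv]
    ring
  have h0 := mzb_dc_engine h hv (mzb_qi_ginv A p) g⁻¹ (mzb_dc_ginv_model hU) D hD
  refine mzb_ra_eq_of_pos _ D h0 ?_ fun P hP => hzeros P ?_
  · rw [hDord, mzb_dc_ord_eq_zero_of_sub_const x hc0 hx, sub_zero]; exact hx
  · rw [hDord] at hP
    by_contra hle
    rw [not_lt] at hle
    rcases lt_or_eq_of_le hle with hlt | heq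
    · rw [mzb_dc_ord_sub_const_of_neg P c0 hlt] at hP
      omega
    · have hmem : g ∈ P.toValuationSubring := (hw_mem_iff_ord_nonneg P hgne).mpr heq.ge
      have hmem2 : g - algebraMap Qbar Fb c0 ∈ P.toValuationSubring :=
        P.toValuationSubring.sub_mem hmem (P.algebraMap_mem' c0)
      have := (hw_mem_iff_ord_nonneg P hsub_ne).mp hmem2
      omega

/-- **Uniqueness**: `j` has its poles at `inf` (simple) and `zero`, `r zero ≠ r inf`,
`v(j0) > 1`: at most one place over `j0` reduces to `r inf`. -/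
theorem mzb_dc_unique (h : ReductionInputsModL A p)
    {inf zero : Place Qbar (modularFunctionFieldBar p)}
    (hpoles : ∀ P : Place Qbar (modularFunctionFieldBar p), P.ord (mzb_jB p) < 0 →
      P = inf ∨ P = zero)
    (hinf : inf.ord (mzb_jB p) = -1)
    (hne : placeReductionModL h zero ≠ placeReductionModL h inf)
    {j0 : Qbar} (hj0 : 1 < A.valuation j0) {x x' : Place Qbar (modularFunctionFieldBar p)}
    (hx : 0 < x.ord (mzb_jB p - algebraMap Qbar (modularFunctionFieldBar p) j0))
    (hx' : 0 < x'.ord (mzb_jB p - algebraMap Qbar (modularFunctionFieldBar p) j0))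
    (hrx : placeReductionModL h x = placeReductionModL h inf)
    (hrx' : placeReductionModL h x' = placeReductionModL h inf) : x = x' := by
  have hj0ne : j0 ≠ 0 := by
    rintro rfl
    rw [map_zero] at hj0
    exact absurd hj0 (not_lt.mpr zero_le_one)
  have hinv : A.valuation j0⁻¹ < 1 := by
    rw [map_inv₀]; exact inv_lt_one_of_one_lt₀ hj0
  set f : Fb := algebraMap Qbar Fb j0⁻¹ * mzb_jB p - 1 with hf
  have hsub_ne : mzb_jB p - algebraMap Qbar Fb j0 ≠ 0 := mzb_dc_ne_zero_of_ord_ne x hx.ne'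
  have hcne : algebraMap Qbar Fb j0⁻¹ ≠ 0 := by simpa using hj0ne
  have hf' : f = algebraMap Qbar Fb j0⁻¹ * (mzb_jB p - algebraMap Qbar Fb j0) := by
    rw [hf, mul_sub, ← map_mul, inv_mul_cancel₀ hj0ne, map_one]
  have hfne : f ≠ 0 := by rw [hf']; exact mul_ne_zero hcne hsub_ne
  obtain ⟨D, hD, -⟩ := (est_riemann_fbar p).prin f hfne
  have hDord : ∀ P, D P = P.ord (mzb_jB p - algebraMap Qbar Fb j0) := by
    intro P
    rw [hD, hf', P.ord_mul hcne hsub_ne, hw_ord_algebraMap, zero_add]
  have h0 := mzb_dc_engine h hinv (jqModC A) (mzb_jB p) mzb_dc_j_model D hD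
  refine mzb_ra_unique _ D h0 (P0 := inf) ?_ ?_ (by rw [hDord]; exact hx)
    (by rw [hDord]; exact hx') hrx hrx'
  · rw [hDord, mzb_dc_ord_sub_const_of_neg inf j0 (by rw [hinf]; norm_num), hinf]
  · intro P hP hrP
    rw [hDord] at hP
    rcases hpoles P (mzb_dc_ord_neg_of_sub_const P hP) with rfl | rfl
    · rfl
    · exact absurd hrP hne

end Dict

end Fermat.Agent.MZ
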