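/-
MAZUR / node [MZ-B], (B-mod), THE ABSTRACT HALF OF THE CUSP DICTIONARY (helper22).  Prefix `mzb_da_`.

`r` a place reduction (`IsPlaceReductionAlong A π N r`), `y` an `A`-integral modular function whose
reduction is a NONZERO CONSTANT, `D = div(y)`.  Then `r_* D = 0`, i.e. `r_*(zeros) = r_*(poles)`:

* `mzb_da_mapDomain_zero`            : `Finsupp.mapDomain r D = 0`;
* `mzb_da_one_pole` / `_one_zero`    : if all poles (zeros) of `y` sit at ONE place `P0`, then every zero
                                       (pole) of `y` reduces to `r P0`;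
* `mzb_da_unique`                    : if `y` has a simple pole at `Pinf` and no other pole reduces to
                                       `r Pinf`, then EXACTLY ONE zero of `y` reduces to `r Pinf`.
The combinatorics are pure `Finsupp` lemmas (`mzb_da_fs_*`).
-/
import Mathlib
import Fermat.Prelude.Def_ModularCurve_ReductionModL

set_option autoImplicit false

open HahnSeries AlgebraicCurve ModularCurve

namespace Fermat.Agent.MZ

section Fs

variable {α β : Type*} (r : α → β) (D : α →₀ ℤ)

/-- the value of a push-forward at a point -/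
theorem mzb_da_fs_apply [DecidableEq β] (Q : β) :
    Finsupp.mapDomain r D Q = ∑ P ∈ D.support, if r P = Q then D P else 0 := by
  rw [Finsupp.mapDomain, Finsupp.sum_apply, Finsupp.sum]
  refine Finset.sum_congr rfl fun P _ => ?_
  rw [Finsupp.single_apply]

/-- if `r_* D = 0` and `D` is negative at ONE point `P0` only, every point where `D` is positive is
mapped to `r P0` -/
theorem mzb_da_fs_one_pole (h0 : Finsupp.mapDomain r D = 0) (P0 : α)
    (hneg : ∀ P, D P < 0 → P = P0) (P : α) (hP : 0 < D P) : r P = r P0 := by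
  classical
  by_contra hne
  have h1 := mzb_da_fs_apply r D (r P)
  rw [h0, Finsupp.zero_apply] at h1
  have hnonneg : ∀ P' ∈ D.support, 0 ≤ (if r P' = r P then D P' else 0) := by
    intro P' _
    split_ifs with h
    · by_contra hlt
      have := hneg P' (not_le.mp hlt)
      rw [this] at h
      exact hne h.symm
    · exact le_refl _
  have hPs : P ∈ D.support := Finsupp.mem_support_iff.mpr hP.ne'
  have hpos : 0 < ∑ P' ∈ D.support, if r P' = r P then D P' else 0 := by
    refine Finset.sum_pos' hnonneg ⟨P, hPs, ?_⟩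
    rw [if_pos rfl]
    exact hP
  rw [← h1] at hpos
  exact lt_irrefl _ hpos

/-- mirror: `D` positive at ONE point `P0` only -/
theorem mzb_da_fs_one_zero (h0 : Finsupp.mapDomain r D = 0) (P0 : α)
    (hpos : ∀ P, 0 < D P → P = P0) (P : α) (hP : D P < 0) : r P = r P0 := by
  refine mzb_da_fs_one_pole r (-D) ?_ P0 (fun P' h => hpos P' ?_) P ?_
  · rw [← Finsupp.mapDomain.addMonoidHom_apply, map_neg, Finsupp.mapDomain.addMonoidHom_apply, h0,
      neg_zero]
  · rw [Finsupp.neg_apply] at h; omega
  · rw [Finsupp.neg_apply]; omega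

/-- if `r_* D = 0`, `D Pinf = -1` and no other point where `D` is negative is mapped to `r Pinf`,
then EXACTLY ONE point where `D` is positive is mapped to `r Pinf` -/
theorem mzb_da_fs_unique (h0 : Finsupp.mapDomain r D = 0) (Pinf : α) (hDinf : D Pinf = -1)
    (hother : ∀ P, D P < 0 → P ≠ Pinf → r P ≠ r Pinf) :
    ∃! P, 0 < D P ∧ r P = r Pinf := by
  classical
  have h1 := mzb_da_fs_apply r D (r Pinf)
  rw [h0, Finsupp.zero_apply] at h1
  have hPinf : Pinf ∈ D.support := Finsupp.mem_support_iff.mpr (by rw [hDinf]; omega)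
  -- split off the term at `Pinf`
  rw [← Finset.add_sum_erase _ _ hPinf, if_pos rfl, hDinf] at h1
  have hsum : ∑ P ∈ D.support.erase Pinf, (if r P = r Pinf then D P else 0) = 1 := by omega
  have hnonneg : ∀ P' ∈ D.support.erase Pinf, 0 ≤ (if r P' = r Pinf then D P' else 0) := by
    intro P' hP'
    split_ifs with h
    · by_contra hlt
      exact hother P' (not_le.mp hlt) (Finset.ne_of_mem_erase hP') h
    · exact le_refl _
  -- some term is positive
  have hex : ∃ P ∈ D.support.erase Pinf, 0 < (if r P = r Pinf then D P else 0) := by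
    by_contra hcon
    push Not at hcon
    have : ∑ P ∈ D.support.erase Pinf, (if r P = r Pinf then D P else 0) ≤ 0 :=
      Finset.sum_nonpos hcon
    omega
  obtain ⟨P, hPm, hPpos⟩ := hex
  have hrP : r P = r Pinf := by
    by_contra h
    rw [if_neg h] at hPpos
    exact lt_irrefl _ hPpos
  rw [if_pos hrP] at hPpos
  refine ⟨P, ⟨hPpos, hrP⟩, fun P' ⟨hP'pos, hrP'⟩ => ?_⟩
  by_contra hne
  have hP'm : P' ∈ D.support.erase Pinf := by
    refine Finset.mem_erase.mpr ⟨?_, Finsupp.mem_support_iff.mpr hP'pos.ne'⟩
    rintro rfl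
    omega
  have hP'm2 : P' ∈ (D.support.erase Pinf).erase P := Finset.mem_erase.mpr ⟨hne, hP'm⟩
  rw [← Finset.add_sum_erase _ _ hPm, if_pos hrP,
    ← Finset.add_sum_erase _ _ hP'm2, if_pos hrP'] at hsum
  have hrest : 0 ≤ ∑ x ∈ ((D.support.erase Pinf).erase P).erase P',
      (if r x = r Pinf then D x else 0) :=
    Finset.sum_nonneg fun x hx =>
      hnonneg x (Finset.mem_of_mem_erase (Finset.mem_of_mem_erase hx))
  omega

end Fs

section Ord

variable {K : Type*} [Field K] {F : Type*} [Field F] [Algebra K F]

/-- constants have order `0` at every place -/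
theorem mzb_da_ord_const (Q : Place K F) (c : K) : Q.ord (algebraMap K F c) = 0 := by
  rcases eq_or_ne c 0 with rfl | hc
  · rw [map_zero, Place.ord_zero]
  · have h1 : algebraMap K F c ∈ Q.toValuationSubring := Q.algebraMap_mem' c
    have h2 : algebraMap K F c⁻¹ ∈ Q.toValuationSubring := Q.algebraMap_mem' c⁻¹
    have hu : IsUnit (⟨algebraMap K F c, h1⟩ : Q.toValuationSubring) := by
      refine IsUnit.of_mul_eq_one (⟨algebraMap K F c⁻¹, h2⟩ : Q.toValuationSubring) ?_
      apply Subtype.ext
      show algebraMap K F c * algebraMap K F c⁻¹ = 1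
      rw [← map_mul, mul_inv_cancel₀ hc, map_one]
    exact Q.ord_coe_unit hu.unit

end Ord

section Dict

variable {L : Type*} [Field L] [Algebra ℚ L] {A : ValuationSubring L}
variable {k : Type*} [Field k] {π : A →+* k} {N : ℕ}
variable {r : Place L (laurentBaseChange L (modularFunctionFieldFull N)) →
  Place k (modularFunctionFieldFullC k N)}

/-- **(D1)** an `A`-integral function whose reduction is a nonzero constant: the push-forward of its
divisor vanishes. -/
theorem mzb_da_mapDomain_zero (hr : IsPlaceReductionAlong A π N r) (y : LaurentSeries A)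
    (hy : coeffMap A.subtype y ∈ laurentBaseChange L (modularFunctionFieldFull N))
    (c : k) (hc : c ≠ 0) (hyc : coeffMap π y = algebraMap k (LaurentSeries k) c)
    (D : Divisor L (laurentBaseChange L (modularFunctionFieldFull N)))
    (hD : ∀ P, D P = P.ord (⟨coeffMap A.subtype y, hy⟩ :
      laurentBaseChange L (modularFunctionFieldFull N))) :
    Finsupp.mapDomain r D = 0 := by
  have hyk : coeffMap π y ∈ modularFunctionFieldFullC k N := by
    rw [hyc]
    exact (modularFunctionFieldFullC k N).algebraMap_mem c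
  have hne : coeffMap π y ≠ 0 := by
    rw [hyc]
    exact (map_ne_zero _).mpr hc
  ext Q
  rw [hr.2 y hy hyk hne D hD Q, Finsupp.zero_apply]
  have : (⟨coeffMap π y, hyk⟩ : modularFunctionFieldFullC k N) =
      algebraMap k (modularFunctionFieldFullC k N) c := Subtype.ext hyc
  rw [this]
  exact mzb_da_ord_const Q c

/-- (D1) with reduction `-1` -/
theorem mzb_da_mapDomain_zero_neg_one (hr : IsPlaceReductionAlong A π N r) (y : LaurentSeries A)
    (hy : coeffMap A.subtype y ∈ laurentBaseChange L (modularFunctionFieldFull N))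
    (hyc : coeffMap π y = -1)
    (D : Divisor L (laurentBaseChange L (modularFunctionFieldFull N)))
    (hD : ∀ P, D P = P.ord (⟨coeffMap A.subtype y, hy⟩ :
      laurentBaseChange L (modularFunctionFieldFull N))) :
    Finsupp.mapDomain r D = 0 :=
  mzb_da_mapDomain_zero hr y hy (-1) (neg_ne_zero.mpr one_ne_zero)
    (by rw [hyc, map_neg, map_one]) D hD

/-- **(D1)+(D3)** all poles of `y` at `P0`: every zero of `y` reduces to `r P0`. -/
theorem mzb_da_one_pole (hr : IsPlaceReductionAlong A π N r) (y : LaurentSeries A)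
    (hy : coeffMap A.subtype y ∈ laurentBaseChange L (modularFunctionFieldFull N))
    (c : k) (hc : c ≠ 0) (hyc : coeffMap π y = algebraMap k (LaurentSeries k) c)
    (D : Divisor L (laurentBaseChange L (modularFunctionFieldFull N)))
    (hD : ∀ P, D P = P.ord (⟨coeffMap A.subtype y, hy⟩ :
      laurentBaseChange L (modularFunctionFieldFull N)))
    (P0 : Place L (laurentBaseChange L (modularFunctionFieldFull N)))
    (hpole : ∀ P, P.ord (⟨coeffMap A.subtype y, hy⟩ :
      laurentBaseChange L (modularFunctionFieldFull N)) < 0 → P = P0)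
    (P : Place L (laurentBaseChange L (modularFunctionFieldFull N)))
    (hP : 0 < P.ord (⟨coeffMap A.subtype y, hy⟩ :
      laurentBaseChange L (modularFunctionFieldFull N))) : r P = r P0 :=
  mzb_da_fs_one_pole r D (mzb_da_mapDomain_zero hr y hy c hc hyc D hD) P0
    (fun P' h => hpole P' (by rwa [← hD])) P (by rwa [hD])

/-- **(D1)+(D3')** all zeros of `y` at `P0`: every pole of `y` reduces to `r P0`. -/
theorem mzb_da_one_zero (hr : IsPlaceReductionAlong A π N r) (y : LaurentSeries A)
    (hy : coeffMap A.subtype y ∈ laurentBaseChange L (modularFunctionFieldFull N))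
    (c : k) (hc : c ≠ 0) (hyc : coeffMap π y = algebraMap k (LaurentSeries k) c)
    (D : Divisor L (laurentBaseChange L (modularFunctionFieldFull N)))
    (hD : ∀ P, D P = P.ord (⟨coeffMap A.subtype y, hy⟩ :
      laurentBaseChange L (modularFunctionFieldFull N)))
    (P0 : Place L (laurentBaseChange L (modularFunctionFieldFull N)))
    (hzero : ∀ P, 0 < P.ord (⟨coeffMap A.subtype y, hy⟩ :
      laurentBaseChange L (modularFunctionFieldFull N)) → P = P0)
    (P : Place L (laurentBaseChange L (modularFunctionFieldFull N)))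
    (hP : P.ord (⟨coeffMap A.subtype y, hy⟩ :
      laurentBaseChange L (modularFunctionFieldFull N)) < 0) : r P = r P0 :=
  mzb_da_fs_one_zero r D (mzb_da_mapDomain_zero hr y hy c hc hyc D hD) P0
    (fun P' h => hzero P' (by rwa [← hD])) P (by rwa [hD])

/-- **(D1)+(D4)** `y` has a simple pole at `Pinf` and no other pole reduces to `r Pinf`: exactly one
zero of `y` reduces to `r Pinf`. -/
theorem mzb_da_unique (hr : IsPlaceReductionAlong A π N r) (y : LaurentSeries A)
    (hy : coeffMap A.subtype y ∈ laurentBaseChange L (modularFunctionFieldFull N))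
    (c : k) (hc : c ≠ 0) (hyc : coeffMap π y = algebraMap k (LaurentSeries k) c)
    (D : Divisor L (laurentBaseChange L (modularFunctionFieldFull N)))
    (hD : ∀ P, D P = P.ord (⟨coeffMap A.subtype y, hy⟩ :
      laurentBaseChange L (modularFunctionFieldFull N)))
    (Pinf : Place L (laurentBaseChange L (modularFunctionFieldFull N)))
    (hinf : Pinf.ord (⟨coeffMap A.subtype y, hy⟩ :
      laurentBaseChange L (modularFunctionFieldFull N)) = -1)
    (hother : ∀ P, P.ord (⟨coeffMap A.subtype y, hy⟩ :
      laurentBaseChange L (modularFunctionFieldFull N)) < 0 → P ≠ Pinf → r P ≠ r Pinf) :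
    ∃! P, 0 < P.ord (⟨coeffMap A.subtype y, hy⟩ :
      laurentBaseChange L (modularFunctionFieldFull N)) ∧ r P = r Pinf := by
  obtain ⟨P, ⟨hP1, hP2⟩, hPu⟩ := mzb_da_fs_unique r D
    (mzb_da_mapDomain_zero hr y hy c hc hyc D hD) Pinf (by rw [hD, hinf])
    (fun P' h hne => hother P' (by rwa [← hD]) hne)
  refine ⟨P, ⟨by rwa [← hD], hP2⟩, fun P' ⟨h1, h2⟩ => hPu P' ⟨by rwa [hD], h2⟩⟩

end Dict

end Fermat.Agent.MZ
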