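/-
MAZUR project, node **[MZ-B]**, cell (B-ell) (helper16).  Prefix `mzb_el_`.

THE ELLIPTIC-CURVE HALF OF THE CUSP DICTIONARY.  `W : WeierstrassCurve ℤ`, `Q` a point of exact
prime order `p` of `W` over `ℚ̄`, `A` a valuation subring of `ℚ̄`, `v = A.valuation`
(multiplicative: `v x ≤ 1 ↔ x ∈ A`), `ψ₂ = 2y + a₁x + a₃`.

* (ii) `mzb_el_lt_out` : `Q ∉ E⁰(A)` ⟹ for `1 ≤ k < p`: `k • Q = (x, y)`, `x, y ∈ A`,
  `v (ψ₂ (k • Q)) < 1`   (NO hypothesis on the residue characteristic or the reduction type);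
  `mzb_el_val_out` : `v (U0) * v(Δ) ^ (p - 1) < 1`.
* (i) `mzb_el_unit_in` : `Q ∈ E⁰(A)`, `A ∣ ℓ ≠ p`, `p` odd ⟹ for `1 ≤ k < p`: `k • Q = (x, y)`,
  `x, y ∈ A`, `v (ψ₂ (k • Q)) = 1`;  `mzb_el_val_in` : `v (U0) * v(Δ) ^ (p - 1) = 1`.
* `mzb_el_j0_val` : `ℓ ∣ Δ`, `ℓ ∤ c₄` ⟹ `v (j0) * v(Δ) = 1` and `v(Δ) < 1`.
-/
import Mathlib
import Fermat.Agent.MZ.B.EllDefs
import Fermat.Agent.S58.Mult.ZeroComp

set_option autoImplicit false
set_option linter.unusedSectionVars false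
set_option linter.unusedVariables false

namespace Fermat.Agent.MZ

open WeierstrassCurve WeierstrassCurve.Affine WeierstrassCurve.Affine.Point IsLocalRing
open Fermat.Agent.S58 Fermat.Agent.S05

/-! ### multiples of a point of prime order -/

section Group

variable {W : WeierstrassCurve ℤ} {p : ℕ} (hp : p.Prime) {Q : s58_E W} (hQord : addOrderOf Q = p)
include hp hQord

theorem mzb_el_nsmul_ne_zero {k : ℕ} (hk1 : 1 ≤ k) (hkp : k < p) : k • Q ≠ 0 := by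
  intro h
  have := addOrderOf_dvd_of_nsmul_eq_zero h
  rw [hQord] at this
  exact absurd (Nat.le_of_dvd hk1 this) (not_le.mpr hkp)

theorem mzb_el_p_nsmul (k : ℕ) : p • (k • Q) = 0 := by
  rw [smul_comm, ← hQord, addOrderOf_nsmul_eq_zero, smul_zero]

/-- `Q` is a multiple of `k • Q`. -/
theorem mzb_el_exists_mul {k : ℕ} (hk1 : 1 ≤ k) (hkp : k < p) : ∃ m : ℕ, m • (k • Q) = Q := by
  have hcop : Nat.Coprime k p :=
    ((Nat.Prime.coprime_iff_not_dvd hp).mpr (Nat.not_dvd_of_pos_of_lt hk1 hkp)).symm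
  obtain ⟨m, -, hm⟩ := Nat.exists_mul_mod_eq_one_of_coprime hcop hp.one_lt
  refine ⟨m, ?_⟩
  rw [← mul_smul, mul_comm, ← mod_addOrderOf_nsmul, hQord, hm, one_smul]

end Group

/-! ### the model over `A` -/

section Model

variable (W : WeierstrassCurve ℤ) (A : ValuationSubring s58_Qb)

theorem mzb_el_WA_map : (s58m_WA W A).map A.subtype = (s58_WQ W)⁄s58_Qb := by
  show (W.map (Int.castRingHom A)).map A.subtype =
    (W.map (Int.castRingHom ℚ)).map (algebraMap ℚ s58_Qb)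
  rw [WeierstrassCurve.map_map, WeierstrassCurve.map_map]
  congr 1

/-- `ψ₂` of an integral point as an element of `A`. -/
noncomputable def mzb_el_psiA (a b : A) : A :=
  2 * b + (s58m_WA W A).a₁ * a + (s58m_WA W A).a₃

theorem mzb_el_psiA_coe (a b : A) (h : ((s58_WQ W)⁄s58_Qb).Nonsingular (a : s58_Qb) (b : s58_Qb)) :
    ((mzb_el_psiA W A a b : A) : s58_Qb) = mzb_el_psi2 W (Point.some _ _ h) := by
  rw [mzb_el_psi2_some, mzb_el_psiA]
  have h1 : (((s58m_WA W A).a₁ : A) : s58_Qb) = ((W.a₁ : ℤ) : s58_Qb) := by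
    show (((W.map (Int.castRingHom A)).a₁ : A) : s58_Qb) = _
    rw [WeierstrassCurve.map_a₁, eq_intCast]
    push_cast; rfl
  have h3 : (((s58m_WA W A).a₃ : A) : s58_Qb) = ((W.a₃ : ℤ) : s58_Qb) := by
    show (((W.map (Int.castRingHom A)).a₃ : A) : s58_Qb) = _
    rw [WeierstrassCurve.map_a₃, eq_intCast]
    push_cast; rfl
  have h2 : (((2 : A)) : s58_Qb) = 2 := rfl
  rw [Subring.coe_add, Subring.coe_add, Subring.coe_mul, Subring.coe_mul, h1, h3, h2]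

/-- the residue of `ψ₂`: `ȳ - negY x̄ ȳ` on the reduced curve. -/
theorem mzb_el_psiA_residue (a b : A) :
    residue A (mzb_el_psiA W A a b) =
      residue A b - (s58m_Wk W A).negY (residue A a) (residue A b) := by
  rw [mzb_el_psiA, negY]
  have h1 : (s58m_Wk W A).a₁ = residue A (s58m_WA W A).a₁ := rfl
  have h3 : (s58m_Wk W A).a₃ = residue A (s58m_WA W A).a₃ := rfl
  rw [h1, h3, map_add, map_add, map_mul, map_mul, map_ofNat]
  ring

end Model

/-! ### (ii): `Q ∉ E⁰` -/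

section Out

variable {W : WeierstrassCurve ℤ} {p : ℕ} (hp : p.Prime) {Q : s58_E W} (hQord : addOrderOf Q = p)
  (A : ValuationSubring s58_Qb)
include hp hQord

/-- **(ii)** `Q ∉ E⁰(A)`: the multiples `k • Q`, `1 ≤ k < p`, are integral and `ψ₂ (k • Q)` lies in
the maximal ideal (they reduce to the singular point). -/
theorem mzb_el_lt_out (h0 : ¬ W.InZeroComponentAt A Q) {k : ℕ} (hk1 : 1 ≤ k) (hkp : k < p) :
    ∃ (x y : s58_Qb) (h : ((s58_WQ W)⁄s58_Qb).Nonsingular x y),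
      k • Q = Point.some x y h ∧ x ∈ A ∧ y ∈ A ∧ A.valuation (mzb_el_psi2 W (k • Q)) < 1 := by
  classical
  have hkQ : ¬ W.InZeroComponentAt A (k • Q) := by
    intro h
    obtain ⟨m, hm⟩ := mzb_el_exists_mul hp hQord hk1 hkp
    apply h0
    rw [← hm]
    exact s58m_inZeroComponentAt_nsmul h m
  have hne := mzb_el_nsmul_ne_zero hp hQord hk1 hkp
  rcases hP : k • Q with _ | ⟨x, y, h⟩
  · exact absurd hP hne
  · rw [hP] at hkQ
    have hx : x ∈ A := by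
      by_contra hx
      exact hkQ (Or.inr ⟨x, y, h, rfl, Or.inl hx⟩)
    have h' : ((s58m_WA W A).map A.subtype).toAffine.Nonsingular x y := by
      rw [mzb_el_WA_map]; exact h
    have hy : y ∈ A := s58r_y_mem A (s58m_WA W A) hx h'.1
    have he := s58r_equation_residue A (s58m_WA W A) (a := ⟨x, hx⟩) (b := ⟨y, hy⟩) h'.1
    have hns : ¬ (s58m_Wk W A).Nonsingular (residue A ⟨x, hx⟩) (residue A ⟨y, hy⟩) := by
      intro hn
      refine hkQ (Or.inr ⟨x, y, h, rfl, Or.inr ⟨hx, hy, ?_⟩⟩)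
      rw [← s58m_Wk_eq]
      exact hn
    have hFy : residue A ⟨y, hy⟩ =
        (s58m_Wk W A).negY (residue A ⟨x, hx⟩) (residue A ⟨y, hy⟩) := by
      by_contra hne'
      exact hns ((nonsingular_iff _ _).mpr ⟨he, Or.inr hne'⟩)
    refine ⟨x, y, h, rfl, hx, hy, ?_⟩
    have hres : residue A (mzb_el_psiA W A ⟨x, hx⟩ ⟨y, hy⟩) = 0 := by
      rw [mzb_el_psiA_residue, ← hFy, sub_self]
    rw [residue_eq_zero_iff, A.valuation_lt_one_iff] at hres
    rw [← mzb_el_psiA_coe W A ⟨x, hx⟩ ⟨y, hy⟩ h]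
    exact hres

end Out

/-! ### (i): `Q ∈ E⁰` -/

section In

variable {W : WeierstrassCurve ℤ} {p : ℕ} (hp : p.Prime) (hp2 : p ≠ 2) {Q : s58_E W}
  (hQord : addOrderOf Q = p) {A : ValuationSubring s58_Qb} {ℓ : ℕ} (hℓ : ℓ.Prime) (hℓp : ℓ ≠ p)
  (hA : A.LiesOverPrime ℓ)
include hp hp2 hQord hℓ hℓp hA

/-- **(i)** `Q ∈ E⁰(A)`, `A ∣ ℓ ≠ p`, `p` odd: the multiples `k • Q`, `1 ≤ k < p`, are integral and
`ψ₂ (k • Q)` is a unit of `A` (they reduce to nonsingular points of odd order `p`). -/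
theorem mzb_el_unit_in (h0 : W.InZeroComponentAt A Q) {k : ℕ} (hk1 : 1 ≤ k) (hkp : k < p) :
    ∃ (x y : s58_Qb) (h : ((s58_WQ W)⁄s58_Qb).Nonsingular x y),
      k • Q = Point.some x y h ∧ x ∈ A ∧ y ∈ A ∧ A.valuation (mzb_el_psi2 W (k • Q)) = 1 := by
  classical
  have hM := s58m_model W A
  have hunit : A.valuation ((p : ℕ) : s58_Qb) = 1 := by
    have := (intVal_eq_one_iff A hA hℓ ((p : ℕ) : ℤ)).mpr
      (fun h => hℓp ((Nat.prime_dvd_prime_iff_eq hℓ hp).mp (by exact_mod_cast h)))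
    rwa [Int.cast_natCast] at this
  have hkQ : W.InZeroComponentAt A (k • Q) := s58m_inZeroComponentAt_nsmul h0 k
  have hmem : k • Q ∈ s58r_E0 hM := (s58m_inZeroComponentAt_iff _).mp hkQ
  have hne := mzb_el_nsmul_ne_zero hp hQord hk1 hkp
  have hpk := mzb_el_p_nsmul hp hQord k
  set P : s58r_E0 hM := ⟨k • Q, hmem⟩ with hPdef
  have hpP : p • P = 0 := Subtype.ext (by rw [AddSubgroup.coe_nsmul]; exact hpk)
  have hR : p • s58r_red hM P = 0 := by rw [← map_nsmul, hpP, _root_.map_zero]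
  have hR0 : s58r_red hM P ≠ 0 := by
    intro h
    have := s58r_red_injective_on_torsion hM hunit (P := P) hpk h
    exact hne (congrArg Subtype.val this)
  have hspec := s58r_red_spec hM P
  generalize hRdef : s58r_red hM P = R at hspec hR hR0
  have hPQ : (P : s58_E W) = k • Q := rfl
  rw [hPQ] at hspec
  generalize hTdef : k • Q = T at hspec
  cases hspec with
  | zero => exact absurd rfl hR0
  | inf h hx => exact absurd rfl hR0
  | aff a b h h' =>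
    refine ⟨a, b, h, rfl, a.2, b.2, ?_⟩
    -- `2 • R ≠ 0`
    have h2R : Point.some _ _ h' + Point.some _ _ h' ≠ 0 := by
      intro h2
      obtain ⟨m, hm⟩ : ∃ m, p = 2 * m + 1 := by
        rcases hp.eq_two_or_odd with h | h
        · exact absurd h hp2
        · exact ⟨p / 2, by omega⟩
      apply hR0
      have : p • Point.some _ _ h' = Point.some _ _ h' := by
        rw [hm, add_smul, mul_comm, mul_smul, one_smul, two_smul, h2, nsmul_zero, zero_add]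
      rw [← this]
      exact hR
    have hney : residue A b ≠ (s58m_Wk W A).negY (residue A a) (residue A b) :=
      fun he => h2R (Point.add_of_Y_eq rfl he)
    have hres : residue A (mzb_el_psiA W A a b) ≠ 0 := by
      rw [mzb_el_psiA_residue]
      exact sub_ne_zero.mpr hney
    rw [Ne, residue_eq_zero_iff, A.valuation_lt_one_iff, not_lt] at hres
    rw [← mzb_el_psiA_coe W A a b h]
    exact le_antisymm (A.valuation_le_one _) hres

end In

/-! ### the valuation of `U0` and of `j0` -/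

section Val

variable {W : WeierstrassCurve ℤ} {p : ℕ} (hp : p.Prime) {Q : s58_E W}
  (hQord : addOrderOf Q = p) {A : ValuationSubring s58_Qb} {ℓ : ℕ} (hℓ : ℓ.Prime) (hℓp : ℓ ≠ p)
  (hA : A.LiesOverPrime ℓ) (hΔ : W.Δ ≠ 0)

include hΔ in
theorem mzb_el_val_Δ_ne_zero : A.valuation ((W.Δ : ℤ) : s58_Qb) ≠ 0 := by
  rw [Ne, Valuation.zero_iff]
  exact_mod_cast hΔ

include hp hℓ hℓp hA hΔ in
/-- `v(U0) · v(Δ)^(p-1) = (∏_k v(ψ₂(k • Q)))⁴` for `A ∣ ℓ ≠ p`. -/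
theorem mzb_el_U0_val :
    A.valuation (mzb_el_U0 W p Q) * A.valuation ((W.Δ : ℤ) : s58_Qb) ^ (p - 1) =
      (∏ k ∈ Finset.Ico 1 p, A.valuation (mzb_el_psi2 W (k • Q))) ^ 4 := by
  have hunit : A.valuation ((p : ℕ) : s58_Qb) = 1 := by
    have := (intVal_eq_one_iff A hA hℓ ((p : ℕ) : ℤ)).mpr
      (fun h => hℓp ((Nat.prime_dvd_prime_iff_eq hℓ hp).mp (by exact_mod_cast h)))
    rwa [Int.cast_natCast] at this
  have h0 : A.valuation ((W.Δ : ℤ) : s58_Qb) ^ (p - 1) ≠ 0 :=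
    pow_ne_zero _ (mzb_el_val_Δ_ne_zero hΔ)
  unfold mzb_el_U0
  rw [map_div₀, map_mul, map_pow, map_pow, map_pow, hunit, one_pow, one_mul, map_prod,
    div_mul_cancel₀ _ h0]

include hp hQord hℓ hℓp hA hΔ in
/-- **(i)** `Q ∈ E⁰(A)`, `A ∣ ℓ ≠ p`, `p` odd: `v_A(U0) = -(p-1) v_A(Δ)`. -/
theorem mzb_el_val_in (hp2 : p ≠ 2) (h0 : W.InZeroComponentAt A Q) :
    A.valuation (mzb_el_U0 W p Q) * A.valuation ((W.Δ : ℤ) : s58_Qb) ^ (p - 1) = 1 := by
  rw [mzb_el_U0_val hp hℓ hℓp hA hΔ, Finset.prod_eq_one, one_pow]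
  intro k hk
  rw [Finset.mem_Ico] at hk
  obtain ⟨x, y, h, -, -, -, hv⟩ := mzb_el_unit_in hp hp2 hQord hℓ hℓp hA h0 hk.1 hk.2
  exact hv

include hp hQord hℓ hℓp hA hΔ in
/-- **(ii)** `Q ∉ E⁰(A)`, `A ∣ ℓ ≠ p`: `v_A(U0) > -(p-1) v_A(Δ)`. -/
theorem mzb_el_val_out (h0 : ¬ W.InZeroComponentAt A Q) :
    A.valuation (mzb_el_U0 W p Q) * A.valuation ((W.Δ : ℤ) : s58_Qb) ^ (p - 1) < 1 := by
  rw [mzb_el_U0_val hp hℓ hℓp hA hΔ]
  refine pow_lt_one' ?_ (by norm_num)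
  have hlt : ∀ k ∈ Finset.Ico 1 p, A.valuation (mzb_el_psi2 W (k • Q)) < 1 := by
    intro k hk
    rw [Finset.mem_Ico] at hk
    obtain ⟨x, y, h, -, -, -, hv⟩ := mzb_el_lt_out hp hQord A h0 hk.1 hk.2
    exact hv
  have h1 : 1 ∈ Finset.Ico 1 p := Finset.mem_Ico.mpr ⟨le_refl 1, hp.one_lt⟩
  rw [← Finset.mul_prod_erase _ _ h1]
  refine mul_lt_one_of_lt_of_le (hlt 1 h1) (Finset.prod_le_one' fun k hk => ?_)
  exact (hlt k (Finset.mem_of_mem_erase hk)).le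

include hℓ hA hΔ in
/-- multiplicative reduction at `ℓ`: `v_A(j0) = -v_A(Δ) < 0`. -/
theorem mzb_el_j0_val (hℓΔ : (ℓ : ℤ) ∣ W.Δ) (hℓc₄ : ¬ (ℓ : ℤ) ∣ W.c₄) :
    A.valuation (mzb_el_j0 W) * A.valuation ((W.Δ : ℤ) : s58_Qb) = 1 ∧
      A.valuation ((W.Δ : ℤ) : s58_Qb) < 1 := by
  refine ⟨?_, (intVal_lt_one_iff A hA hℓ _).mpr hℓΔ⟩
  unfold mzb_el_j0
  rw [map_div₀, map_pow, (intVal_eq_one_iff A hA hℓ _).mpr hℓc₄, one_pow,
    div_mul_cancel₀ _ (mzb_el_val_Δ_ne_zero hΔ)]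

end Val

end Fermat.Agent.MZ
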