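/-
MAZUR project, node **[MZ-B]** (helper16).  Prefix `mzb_pm_`.

**`Q ∈ E⁰` at a multiplicative prime `ℓ ≠ p` forces `ℓ ≡ ±1 mod p`** for a `G_ℚ`-fixed point `Q` of
exact order `p` (`mzb_pm_main`), in the vocabulary of the frozen statement S15.

Proof (no Tate curve, no point count): `Q` has rational coordinates, so its reduction `(x̄, ȳ)` at
`A ∣ ℓ` has coordinates in the prime field of the residue field `κ`.  The node `(x0, y0)` of the
reduced cubic is rational over `𝔽_ℓ` (`s58m_singular_point` over `ZMod ℓ`), the two tangent slopes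
`α, β ∈ κ` are the roots of a quadratic over `𝔽_ℓ`, hence permuted by Frobenius.  The parameter
`t = (Y - αX)/(Y - βX)` of the reduction under helper19's parametrisation `s58m_phi : κˣ → W̃(κ)`
satisfies `t ^ ℓ = t` or `t ^ ℓ = t⁻¹`, and has exact order `p` because the reduction map is
injective on prime-to-`ℓ` torsion ([RED-HOM] of S58).
-/
import Mathlib
import Fermat.Agent.S58.Mult.ZeroComp

set_option autoImplicit false
set_option linter.unusedSectionVars false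
set_option linter.unusedVariables false

namespace Fermat.Agent.MZ

open WeierstrassCurve WeierstrassCurve.Affine IsLocalRing
open Fermat.Agent.S58 Fermat.Agent.S05

/-! ### the inverse of the nodal parametrisation -/

section Param

variable {k : Type*} [Field k] {W : Affine k} {x0 y0 α β : k} (H : s58m_Nodal W x0 y0 α β)

include H in
/-- the nodal equation `(Y - αX)(Y - βX) = X³`. -/
theorem mzb_pm_nodal_eq {x y : k} (h : W.Equation x y) :
    ((y - y0) - α * (x - x0)) * ((y - y0) - β * (x - x0)) = (x - x0) ^ 3 := by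
  rw [equation_iff, H.ha1, H.ha2, H.ha3, H.ha4, H.ha6] at h
  linear_combination h

include H in
/-- every point of the nodal cubic other than the node is `(px t, py t)` with
`t = (Y - αX)/(Y - βX)`. -/
theorem mzb_pm_param {x y : k} (h : W.Equation x y) (hx : x ≠ x0) :
    (y - y0) - β * (x - x0) ≠ 0 ∧ ∃ t : kˣ, (t : k) ≠ 1 ∧
      (t : k) * ((y - y0) - β * (x - x0)) = (y - y0) - α * (x - x0) ∧
      s58m_px x0 α β t = x ∧ s58m_py y0 α β t = y := by
  have hX : x - x0 ≠ 0 := sub_ne_zero.2 hx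
  have hu : α - β ≠ 0 := sub_ne_zero.2 H.hne
  have hND := mzb_pm_nodal_eq H h
  set X := x - x0 with hXdef
  set Y := y - y0 with hYdef
  set N := Y - α * X with hN
  set D := Y - β * X with hD
  have hN0 : N ≠ 0 := by
    intro h0
    rw [h0, zero_mul] at hND
    exact hX (pow_eq_zero_iff (by norm_num) |>.1 hND.symm)
  have hD0 : D ≠ 0 := by
    intro h0
    rw [h0, mul_zero] at hND
    exact hX (pow_eq_zero_iff (by norm_num) |>.1 hND.symm)
  have hDN : D - N = (α - β) * X := by rw [hN, hD]; ring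
  have ht0 : N / D ≠ 0 := div_ne_zero hN0 hD0
  have h1t : 1 - N / D = (α - β) * X / D := by
    rw [← hDN]; field_simp
  have h1t0 : 1 - N / D ≠ 0 := by
    rw [h1t]; exact div_ne_zero (mul_ne_zero hu hX) hD0
  refine ⟨hD0, Units.mk0 (N / D) ht0, ?_, ?_, ?_, ?_⟩
  · rw [Units.val_mk0]
    intro h1
    apply h1t0
    rw [h1, sub_self]
  · rw [Units.val_mk0]; field_simp
  · rw [Units.val_mk0, s58m_px, h1t]
    have e : (α - β) ^ 2 * (N / D) / ((α - β) * X / D) ^ 2 = N * D / X ^ 2 := by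
      field_simp
    rw [e, hND]
    have : X ^ 3 / X ^ 2 = X := by field_simp
    rw [this, hXdef]; ring
  · rw [Units.val_mk0, s58m_py, h1t]
    have e1 : α - N / D * β = (α - β) * Y / D := by
      rw [eq_div_iff hD0]
      have h3 : N / D * D = N := div_mul_cancel₀ N hD0
      calc (α - N / D * β) * D = α * D - (N / D * D) * β := by ring
        _ = α * D - N * β := by rw [h3]
        _ = (α - β) * Y := by rw [hN, hD]; ring
    rw [e1]
    have e : (α - β) * Y / D * (N / D) * (α - β) ^ 2 / ((α - β) * X / D) ^ 3 =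
        Y * (N * D) / X ^ 3 := by
      field_simp
    rw [e, hND]
    have : Y * X ^ 3 / X ^ 3 = Y := by field_simp
    rw [this, hYdef]; ring

end Param

/-! ### the nodal form from the singular point and one slope -/

section NodalOf

variable {k : Type*} [Field k] (W : Affine k)

/-- the nodal form of `W` from its singular point `(x0, y0)` and a root `α` of
`T² + a₁ T - (a₂ + 3 x0)` (the computation inside `s58m_nodal_exists`). -/
theorem mzb_pm_nodal_of_singular {x0 y0 α : k}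
    (hFx : W.a₁ * y0 - 3 * x0 ^ 2 - 2 * W.a₂ * x0 - W.a₄ = 0)
    (hFy : 2 * y0 + W.a₁ * x0 + W.a₃ = 0)
    (hF : y0 ^ 2 + W.a₁ * x0 * y0 + W.a₃ * y0 - x0 ^ 3 - W.a₂ * x0 ^ 2 - W.a₄ * x0 - W.a₆ = 0)
    (hB : W.b₂ + 12 * x0 ≠ 0)
    (hα : α ^ 2 + W.a₁ * α - (W.a₂ + 3 * x0) = 0) :
    s58m_Nodal W x0 y0 α (-W.a₁ - α) := by
  refine ⟨by ring, by linear_combination -hα, by linear_combination hFy,
    by linear_combination -hFx + 2 * x0 * hα, ?_, ?_⟩
  · linear_combination -hF + y0 * hFy + x0 * hFx - x0 ^ 2 * hα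
  · intro h
    apply hB
    have h1 : W.a₁ = -2 * α := by linear_combination h
    simp only [WeierstrassCurve.b₂]
    linear_combination (-4 : k) * hα + (W.a₁ + 2 * α) * h1

/-- a nonsingular point is not the singular point. -/
theorem mzb_pm_ne_node {x0 y0 α β : k} (H : s58m_Nodal W x0 y0 α β) {x y : k}
    (h : W.Nonsingular x y) : x ≠ x0 := by
  intro hx
  have hND := mzb_pm_nodal_eq H h.1
  rw [hx, sub_self, mul_zero, mul_zero, sub_zero, zero_pow (by norm_num)] at hND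
  have hy : y = y0 := by
    have := mul_self_eq_zero.1 hND
    exact sub_eq_zero.1 this
  rw [nonsingular_iff] at h
  rcases h.2 with h1 | h1
  · apply h1
    rw [hx, hy, H.ha1, H.ha2, H.ha4]
    ring
  · apply h1
    rw [hx, hy, H.ha1, H.ha3]
    ring

end NodalOf

/-! ### Frobenius and the parameter -/

section Frob

variable {k : Type*} [Field k] (ℓ : ℕ) [Fact ℓ.Prime] [CharP k ℓ]

/-- Frobenius permutes the two roots of a quadratic with Frobenius-fixed coefficients. -/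
theorem mzb_pm_frob_roots {s m α β : k} (hs : s ^ ℓ = s) (hm : m ^ ℓ = m)
    (hαβ : α + β = s) (hαβ' : α * β = m) :
    (α ^ ℓ = α ∧ β ^ ℓ = β) ∨ (α ^ ℓ = β ∧ β ^ ℓ = α) := by
  have hroot : α ^ 2 - s * α + m = 0 := by rw [← hαβ, ← hαβ']; ring
  have h1 : (α ^ ℓ) ^ 2 - s * α ^ ℓ + m = 0 := by
    have := congrArg (frobenius k ℓ) hroot
    simp only [map_add, map_sub, map_mul, map_pow, map_zero, frobenius_def] at this
    rw [hs, hm] at this
    exact this
  have h2 : (α ^ ℓ - α) * (α ^ ℓ - β) = 0 := by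
    have : (α ^ ℓ - α) * (α ^ ℓ - β) = (α ^ ℓ) ^ 2 - (α + β) * α ^ ℓ + α * β := by ring
    rw [this, hαβ, hαβ']
    exact h1
  have hβ : β ^ ℓ = s - α ^ ℓ := by
    have : β = s - α := by rw [← hαβ]; ring
    rw [this, sub_pow_char, hs]
  rcases mul_eq_zero.1 h2 with h | h
  · left
    have h3 := sub_eq_zero.1 h
    refine ⟨h3, ?_⟩
    rw [hβ, h3, ← hαβ]; ring
  · right
    have h3 := sub_eq_zero.1 h
    refine ⟨h3, ?_⟩
    rw [hβ, h3, ← hαβ]; ring

/-- the parameter `t = (Y - αX)/(Y - βX)` of a point with Frobenius-fixed coordinates satisfies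
`t ^ ℓ = t` or `t ^ ℓ * t = 1`. -/
theorem mzb_pm_frob_param {X Y α β t : k} (hX : X ^ ℓ = X) (hY : Y ^ ℓ = Y)
    (hroots : (α ^ ℓ = α ∧ β ^ ℓ = β) ∨ (α ^ ℓ = β ∧ β ^ ℓ = α))
    (hD : Y - β * X ≠ 0) (ht : t * (Y - β * X) = Y - α * X) :
    t ^ ℓ = t ∨ t ^ ℓ * t = 1 := by
  have hpow : t ^ ℓ * (Y - β ^ ℓ * X) = Y - α ^ ℓ * X := by
    have := congrArg (fun z => z ^ ℓ) ht
    simp only [mul_pow, sub_pow_char, hX, hY] at this
    exact this
  rcases hroots with ⟨h1, h2⟩ | ⟨h1, h2⟩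
  · left
    rw [h1, h2, ← ht] at hpow
    exact mul_right_cancel₀ hD hpow
  · right
    rw [h1, h2, ← ht] at hpow
    have : (t ^ ℓ * t) * (Y - β * X) = 1 * (Y - β * X) := by
      rw [one_mul]; linear_combination hpow
    exact mul_right_cancel₀ hD this

/-- a unit of exact order `p` with `t ^ ℓ = t` or `t ^ ℓ * t = 1`: `p ∣ ℓ - 1` or `p ∣ ℓ + 1`. -/
theorem mzb_pm_order_dvd {p : ℕ} (hp : p.Prime) {t : kˣ} (htp : t ^ p = 1) (ht1 : t ≠ 1)
    (h : (t : k) ^ ℓ = t ∨ (t : k) ^ ℓ * t = 1) : p ∣ ℓ - 1 ∨ p ∣ ℓ + 1 := by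
  have : Fact p.Prime := ⟨hp⟩
  have hord : orderOf t = p := orderOf_eq_prime htp ht1
  have hℓ1 : 1 ≤ ℓ := (Fact.out : ℓ.Prime).one_lt.le
  rcases h with h | h
  · left
    rw [← hord]
    apply orderOf_dvd_of_pow_eq_one
    apply Units.ext
    rw [Units.val_pow_eq_pow_val, Units.val_one]
    have h1 : (t : k) ^ (ℓ - 1) * t = 1 * t := by
      rw [← pow_succ, Nat.sub_add_cancel hℓ1, one_mul]
      exact h
    exact mul_right_cancel₀ t.ne_zero h1
  · right
    rw [← hord]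
    apply orderOf_dvd_of_pow_eq_one
    apply Units.ext
    rw [Units.val_pow_eq_pow_val, Units.val_one, pow_succ]
    exact h

end Frob

/-! ### base change of the singular point -/

section MapSing

variable {k₀ k : Type*} [Field k₀] [Field k] (ι : k₀ →+* k) (W₀ : Affine k₀)

theorem mzb_pm_map_singular {x0 y0 : k₀}
    (hFx : W₀.a₁ * y0 - 3 * x0 ^ 2 - 2 * W₀.a₂ * x0 - W₀.a₄ = 0)
    (hFy : 2 * y0 + W₀.a₁ * x0 + W₀.a₃ = 0)
    (hF : y0 ^ 2 + W₀.a₁ * x0 * y0 + W₀.a₃ * y0 - x0 ^ 3 - W₀.a₂ * x0 ^ 2 - W₀.a₄ * x0 - W₀.a₆ = 0)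
    (hB : W₀.b₂ + 12 * x0 ≠ 0) :
    (W₀.map ι).a₁ * ι y0 - 3 * ι x0 ^ 2 - 2 * (W₀.map ι).a₂ * ι x0 - (W₀.map ι).a₄ = 0 ∧
    2 * ι y0 + (W₀.map ι).a₁ * ι x0 + (W₀.map ι).a₃ = 0 ∧
    ι y0 ^ 2 + (W₀.map ι).a₁ * ι x0 * ι y0 + (W₀.map ι).a₃ * ι y0 - ι x0 ^ 3 -
      (W₀.map ι).a₂ * ι x0 ^ 2 - (W₀.map ι).a₄ * ι x0 - (W₀.map ι).a₆ = 0 ∧
    (W₀.map ι).b₂ + 12 * ι x0 ≠ 0 := by
  refine ⟨?_, ?_, ?_, ?_⟩
  · have := congrArg ι hFx
    simpa only [map_sub, map_mul, map_pow, map_add, map_ofNat, map_zero,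
      WeierstrassCurve.map_a₁, WeierstrassCurve.map_a₂, WeierstrassCurve.map_a₄] using this
  · have := congrArg ι hFy
    simpa only [map_sub, map_mul, map_pow, map_add, map_ofNat, map_zero,
      WeierstrassCurve.map_a₁, WeierstrassCurve.map_a₃] using this
  · have := congrArg ι hF
    simpa only [map_sub, map_mul, map_pow, map_add, map_ofNat, map_zero,
      WeierstrassCurve.map_a₁, WeierstrassCurve.map_a₂, WeierstrassCurve.map_a₃,
      WeierstrassCurve.map_a₄, WeierstrassCurve.map_a₆] using this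
  · intro h
    apply hB
    apply ι.injective
    rw [map_zero, ← h, WeierstrassCurve.map_b₂]
    simp only [map_add, map_mul, map_ofNat]

end MapSing

/-! ### rational numbers in a valuation ring over `ℓ` -/

section Arith

variable {A : ValuationSubring s58_Qb} {ℓ : ℕ} (hA : A.LiesOverPrime ℓ) (hℓ : ℓ.Prime)
include hA hℓ

/-- the residue field of `A ∣ ℓ` has characteristic `ℓ`. -/
theorem mzb_pm_charP : CharP (ResidueField A) ℓ := by
  rw [CharP.charP_iff_prime_eq_zero hℓ]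
  have h1 : residue A (((ℓ : ℕ) : ℤ) : A) = 0 :=
    (s58m_residue_intCast_eq_zero_iff hA hℓ _).mpr (dvd_refl _)
  rwa [Int.cast_natCast, map_natCast] at h1

/-- a rational number lying in `A ∣ ℓ` has its residue in the prime field. -/
theorem mzb_pm_residue_rat_pow (q : ℚ) (hx : algebraMap ℚ s58_Qb q ∈ A) :
    (residue A ⟨algebraMap ℚ s58_Qb q, hx⟩) ^ ℓ = residue A ⟨algebraMap ℚ s58_Qb q, hx⟩ := by
  have : Fact ℓ.Prime := ⟨hℓ⟩
  have : CharP (ResidueField A) ℓ := mzb_pm_charP hA hℓ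
  set x : s58_Qb := algebraMap ℚ s58_Qb q with hxdef
  -- `b * x = a`
  have hb0 : ((q.den : ℤ) : s58_Qb) ≠ 0 := by
    have : (q.den : ℤ) ≠ 0 := by exact_mod_cast q.den_ne_zero
    exact_mod_cast this
  have hbx : ((q.den : ℤ) : s58_Qb) * x = ((q.num : ℤ) : s58_Qb) := by
    have h1 : ((q.den : ℤ) : ℚ) * q = ((q.num : ℤ) : ℚ) := by
      have := Rat.mul_den_eq_num q
      push_cast
      rw [mul_comm]
      exact this
    have h2 := congrArg (algebraMap ℚ s58_Qb) h1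
    rw [map_mul, map_intCast, map_intCast] at h2
    exact h2
  -- `ℓ ∤ b`
  have hb : ¬ (ℓ : ℤ) ∣ (q.den : ℤ) := by
    intro hd
    have hna : ¬ (ℓ : ℤ) ∣ q.num := by
      intro hn
      have h1 : ℓ ∣ q.num.natAbs := Int.natCast_dvd.mp hn
      have h2 : ℓ ∣ q.den := by exact_mod_cast hd
      have h3 := Nat.dvd_gcd h1 h2
      rw [q.reduced] at h3
      exact hℓ.one_lt.ne' (Nat.dvd_one.mp h3)
    have hvb : A.valuation ((q.den : ℤ) : s58_Qb) < 1 := (intVal_lt_one_iff A hA hℓ _).mpr hd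
    have hva : A.valuation ((q.num : ℤ) : s58_Qb) = 1 := (intVal_eq_one_iff A hA hℓ _).mpr hna
    have hvx : A.valuation x ≤ 1 := (A.valuation_le_one_iff x).mpr hx
    have h4 : A.valuation (((q.den : ℤ) : s58_Qb) * x) < 1 := by
      rw [map_mul]
      calc A.valuation ((q.den : ℤ) : s58_Qb) * A.valuation x
          ≤ A.valuation ((q.den : ℤ) : s58_Qb) * 1 := mul_le_mul_right hvx _
        _ = A.valuation ((q.den : ℤ) : s58_Qb) := mul_one _
        _ < 1 := hvb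
    rw [hbx, hva] at h4
    exact lt_irrefl _ h4
  -- the relation in `A` and in the residue field
  have hrelA : (((q.den : ℤ) : ℤ) : A) * ⟨x, hx⟩ = ((q.num : ℤ) : A) := by
    apply Subtype.ext
    have e1 : ((((q.den : ℤ) : ℤ) : A) : s58_Qb) = ((q.den : ℤ) : s58_Qb) := by push_cast; rfl
    have e2 : (((q.num : ℤ) : A) : s58_Qb) = ((q.num : ℤ) : s58_Qb) := by push_cast; rfl
    rw [MulMemClass.coe_mul, e1, e2]
    exact hbx
  have hrel : ((q.den : ℤ) : ResidueField A) * residue A ⟨x, hx⟩ =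
      ((q.num : ℤ) : ResidueField A) := by
    have := congrArg (residue A) hrelA
    rw [map_mul, map_intCast, map_intCast] at this
    exact this
  have hbk : ((q.den : ℤ) : ResidueField A) ≠ 0 := by
    intro h
    apply hb
    have h1 : residue A (((q.den : ℤ) : ℤ) : A) = 0 := by rw [map_intCast]; exact h
    exact (s58m_residue_intCast_eq_zero_iff hA hℓ _).mp h1
  have hfrob : ∀ n : ℤ, ((n : ℤ) : ResidueField A) ^ ℓ = ((n : ℤ) : ResidueField A) := by
    intro n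
    have := map_intCast (frobenius (ResidueField A) ℓ) n
    rwa [frobenius_def] at this
  have hpow := congrArg (fun z => z ^ ℓ) hrel
  simp only [mul_pow, hfrob] at hpow
  rw [← hrel] at hpow
  exact mul_left_cancel₀ hbk hpow

end Arith

/-! ### the main theorem -/

section Main

open WeierstrassCurve.Affine.Point

/-- a `G_ℚ`-fixed affine point has rational coordinates. -/
theorem mzb_pm_rational_coords {W : WeierstrassCurve ℤ} {x y : s58_Qb}
    (h : ((s58_WQ W)⁄s58_Qb).Nonsingular x y)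
    (hfix : ∀ σ : s58_G, σ • (Point.some x y h : s58_E W) = Point.some x y h) :
    (∃ qx : ℚ, algebraMap ℚ s58_Qb qx = x) ∧ ∃ qy : ℚ, algebraMap ℚ s58_Qb qy = y := by
  have hxy : ∀ σ : s58_G, σ x = x ∧ σ y = y := fun σ => by
    have := hfix σ
    rw [algEquiv_smul_def, Point.map_some] at this
    exact Point.some.inj this
  have _ : IsAlgClosure ℚ s58_Qb := ⟨inferInstance, AlgebraicClosure.isAlgebraic ℚ⟩
  have _ : IsGalois ℚ s58_Qb := inferInstance
  exact ⟨(InfiniteGalois.mem_range_algebraMap_iff_fixed x).mpr fun σ => (hxy σ).1,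
    (InfiniteGalois.mem_range_algebraMap_iff_fixed y).mpr fun σ => (hxy σ).2⟩

/-- **`Q ∈ E⁰` at a multiplicative prime `ℓ ≠ p` forces `ℓ ≡ ±1 mod p`**, for `Q` a `G_ℚ`-fixed
point of exact order `p` (vocabulary of the frozen statement S15). -/
theorem mzb_pm_main {p : ℕ} (hp : p.Prime) (W : WeierstrassCurve ℤ)
    (Q : ((W.map (Int.castRingHom ℚ))⁄(AlgebraicClosure ℚ)).Point)
    (hQfix : ∀ σ : AlgebraicClosure ℚ ≃ₐ[ℚ] AlgebraicClosure ℚ, σ • Q = Q)
    (hQord : addOrderOf Q = p)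
    {ℓ : ℕ} (hℓ : ℓ.Prime) (hℓp : ℓ ≠ p) (hℓΔ : (ℓ : ℤ) ∣ W.Δ) (hℓc₄ : ¬ (ℓ : ℤ) ∣ W.c₄)
    (A : ValuationSubring (AlgebraicClosure ℚ)) (hA : A.LiesOverPrime ℓ)
    (h0 : W.InZeroComponentAt A Q) : p ∣ ℓ - 1 ∨ p ∣ ℓ + 1 := by
  classical
  have hfact : Fact ℓ.Prime := ⟨hℓ⟩
  have hchar : CharP (ResidueField A) ℓ := mzb_pm_charP hA hℓ
  have halg : IsAlgClosed (ResidueField A) := s58m_residue_isAlgClosed A
  have hM := s58m_model W A
  have hpQ : p • Q = 0 := by rw [← hQord]; exact addOrderOf_nsmul_eq_zero Q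
  have hQ0 : Q ≠ 0 := by
    intro h
    rw [h, addOrderOf_zero] at hQord
    exact hp.one_lt.ne hQord
  -- `p` is a unit of `A`
  have hunit : A.valuation ((p : ℕ) : s58_Qb) = 1 := by
    have := (intVal_eq_one_iff A hA hℓ ((p : ℕ) : ℤ)).mpr
      (fun h => hℓp ((Nat.prime_dvd_prime_iff_eq hℓ hp).mp (by exact_mod_cast h)))
    rwa [Int.cast_natCast] at this
  -- the reduction of `Q`
  have hmem : Q ∈ s58r_E0 hM := (s58m_inZeroComponentAt_iff Q).mp h0
  set P : s58r_E0 hM := ⟨Q, hmem⟩ with hPdef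
  have hpP : p • P = 0 := Subtype.ext (by rw [AddSubgroup.coe_nsmul]; exact hpQ)
  have hR : p • s58r_red hM P = 0 := by rw [← map_nsmul, hpP, _root_.map_zero]
  have hR0 : s58r_red hM P ≠ 0 := by
    intro h
    have := s58r_red_injective_on_torsion hM hunit (P := P) hpQ h
    exact hQ0 (congrArg Subtype.val this)
  have hspec := s58r_red_spec hM P
  generalize hRdef : s58r_red hM P = R at hspec hR hR0
  have hPQ : (P : s58_E W) = Q := rfl
  rw [hPQ] at hspec
  cases hspec with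
  | zero => exact absurd rfl hR0
  | inf h hx => exact absurd rfl hR0
  | aff a b h h' =>
    -- rational coordinates, residues in the prime field
    obtain ⟨⟨qx, hqx⟩, ⟨qy, hqy⟩⟩ := mzb_pm_rational_coords h hQfix
    have hak : (residue A a) ^ ℓ = residue A a := by
      have ha : a = ⟨algebraMap ℚ s58_Qb qx, hqx ▸ a.2⟩ := Subtype.ext hqx.symm
      rw [ha]
      exact mzb_pm_residue_rat_pow hA hℓ qx _
    have hbk : (residue A b) ^ ℓ = residue A b := by
      have hb : b = ⟨algebraMap ℚ s58_Qb qy, hqy ▸ b.2⟩ := Subtype.ext hqy.symm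
      rw [hb]
      exact mzb_pm_residue_rat_pow hA hℓ qy _
    -- the node, over `ZMod ℓ`
    set Wℓ : Affine (ZMod ℓ) := W.map (Int.castRingHom (ZMod ℓ)) with hWℓ
    have hΔℓ : Wℓ.Δ = 0 := by
      rw [hWℓ, WeierstrassCurve.map_Δ, eq_intCast]
      exact (CharP.intCast_eq_zero_iff (ZMod ℓ) ℓ _).mpr hℓΔ
    have hc4ℓ : Wℓ.c₄ ≠ 0 := by
      rw [hWℓ, WeierstrassCurve.map_c₄, eq_intCast]
      exact fun h => hℓc₄ ((CharP.intCast_eq_zero_iff (ZMod ℓ) ℓ _).mp h)
    obtain ⟨x0, y0, hFx, hFy, hF, hB⟩ := s58m_singular_point Wℓ hΔℓ hc4ℓ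
    set ι : ZMod ℓ →+* ResidueField A := ZMod.castHom (dvd_refl ℓ) (ResidueField A) with hι
    have hWk : s58m_Wk W A = Wℓ.map ι := by
      rw [s58m_Wk_eq, hWℓ]
      show _ = WeierstrassCurve.map (WeierstrassCurve.map W (Int.castRingHom (ZMod ℓ))) ι
      rw [WeierstrassCurve.map_map]
      congr 1
      exact RingHom.ext_int _ _
    obtain ⟨hFx', hFy', hF', hB'⟩ := mzb_pm_map_singular ι Wℓ hFx hFy hF hB
    rw [← hWk] at hFx' hFy' hF' hB'
    -- a tangent slope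
    obtain ⟨α, hα⟩ := IsAlgClosed.exists_root
      (Polynomial.C (1 : ResidueField A) * Polynomial.X ^ 2 +
        Polynomial.C (s58m_Wk W A).a₁ * Polynomial.X +
        Polynomial.C (-((s58m_Wk W A).a₂ + 3 * ι x0)))
      (by rw [Polynomial.degree_quadratic one_ne_zero]; norm_num)
    have hα' : α ^ 2 + (s58m_Wk W A).a₁ * α - ((s58m_Wk W A).a₂ + 3 * ι x0) = 0 := by
      have := hα
      simp only [Polynomial.IsRoot.def, Polynomial.eval_add, Polynomial.eval_mul,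
        Polynomial.eval_C, Polynomial.eval_pow, Polynomial.eval_X] at this
      linear_combination this
    have H := mzb_pm_nodal_of_singular (s58m_Wk W A) hFx' hFy' hF' hB' hα'
    -- the parameter of the reduced point
    have hx_ne : residue A a ≠ ι x0 := mzb_pm_ne_node _ H h'
    obtain ⟨hD, t, ht1, htrel, hpx, hpy⟩ := mzb_pm_param H h'.1 hx_ne
    have hφ : s58m_phi H t = Point.some _ _ h' := by
      rw [s58m_phi_of_ne H ht1]
      exact s58m_some_congr _ _ hpx hpy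
    have htp : t ^ p = 1 := by
      rw [← s58m_phi_eq_zero_iff H, s58m_phi_pow, hφ]
      exact hR
    have ht1' : t ≠ 1 := fun h => ht1 (by rw [h]; rfl)
    -- Frobenius
    have hιpow : ∀ z : ZMod ℓ, (ι z) ^ ℓ = ι z := fun z => by rw [← map_pow, ZMod.pow_card]
    have ha1 : (s58m_Wk W A).a₁ = ι Wℓ.a₁ := by rw [hWk]; rfl
    have ha2 : (s58m_Wk W A).a₂ = ι Wℓ.a₂ := by rw [hWk]; rfl
    have hαβ : α + (-(s58m_Wk W A).a₁ - α) = ι (-Wℓ.a₁) := by
      rw [map_neg, ← ha1]; ring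
    have hαβ' : α * (-(s58m_Wk W A).a₁ - α) = ι (-(Wℓ.a₂ + 3 * x0)) := by
      rw [map_neg, map_add, map_mul, map_ofNat, ← ha2]
      linear_combination -hα'
    have hroots := mzb_pm_frob_roots ℓ (hιpow _) (hιpow _) hαβ hαβ'
    have hX : (residue A a - ι x0) ^ ℓ = residue A a - ι x0 := by
      rw [sub_pow_char, hak, hιpow]
    have hY : (residue A b - ι y0) ^ ℓ = residue A b - ι y0 := by
      rw [sub_pow_char, hbk, hιpow]
    exact mzb_pm_order_dvd ℓ hp htp ht1' (mzb_pm_frob_param ℓ hX hY hroots hD htrel)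

/-- arithmetic: `ℓ ≡ ±1 mod p` with `p ≥ 5` forces `ℓ ≥ 2p - 1`. -/
theorem mzb_pm_arith {p ℓ : ℕ} (hp : p.Prime) (hℓ : ℓ.Prime) (hp5 : 5 ≤ p)
    (h : p ∣ ℓ - 1 ∨ p ∣ ℓ + 1) : 2 * p ≤ ℓ + 1 := by
  have hpodd : p % 2 = 1 := by
    rcases hp.eq_two_or_odd with h2 | h2
    · omega
    · exact h2
  have hℓ2 : 2 ≤ ℓ := hℓ.two_le
  have hℓpar : ℓ = 2 ∨ ℓ % 2 = 1 := hℓ.eq_two_or_odd
  rcases h with ⟨k, hk⟩ | ⟨k, hk⟩
  · -- `ℓ - 1 = p * k`
    rcases Nat.lt_or_ge k 2 with hk2 | hk2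
    · interval_cases k
      · omega
      · rw [mul_one] at hk
        rcases hℓpar with h2 | h2 <;> omega
    · have : p * 2 ≤ p * k := Nat.mul_le_mul_left p hk2
      omega
  · -- `ℓ + 1 = p * k`
    rcases Nat.lt_or_ge k 2 with hk2 | hk2
    · interval_cases k
      · omega
      · rw [mul_one] at hk
        rcases hℓpar with h2 | h2 <;> omega
    · have : p * 2 ≤ p * k := Nat.mul_le_mul_left p hk2
      omega

/-- **the form used by the TOP reduction of S15**: under the hypotheses of `mzb_pm_main` and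
`p ≥ 5`, `ℓ ≥ 2p - 1`; in particular `ℓ > p - 1`, so `ℓ` divides no divisor of `p - 1`. -/
theorem mzb_pm_lt {p : ℕ} (hp : p.Prime) (hp5 : 5 ≤ p) (W : WeierstrassCurve ℤ)
    (Q : ((W.map (Int.castRingHom ℚ))⁄(AlgebraicClosure ℚ)).Point)
    (hQfix : ∀ σ : AlgebraicClosure ℚ ≃ₐ[ℚ] AlgebraicClosure ℚ, σ • Q = Q)
    (hQord : addOrderOf Q = p)
    {ℓ : ℕ} (hℓ : ℓ.Prime) (hℓp : ℓ ≠ p) (hℓΔ : (ℓ : ℤ) ∣ W.Δ) (hℓc₄ : ¬ (ℓ : ℤ) ∣ W.c₄)
    (A : ValuationSubring (AlgebraicClosure ℚ)) (hA : A.LiesOverPrime ℓ)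
    (h0 : W.InZeroComponentAt A Q) : 2 * p ≤ ℓ + 1 :=
  mzb_pm_arith hp hℓ hp5 (mzb_pm_main hp W Q hQfix hQord hℓ hℓp hℓΔ hℓc₄ A hA h0)

/-- under the hypotheses of `mzb_pm_main` and `p ≥ 5`: `ℓ` does not divide `p - 1` (so `ℓ ≠ r` for
every prime `r` dividing the order of the cuspidal class, which divides `p - 1`). -/
theorem mzb_pm_not_dvd {p : ℕ} (hp : p.Prime) (hp5 : 5 ≤ p) (W : WeierstrassCurve ℤ)
    (Q : ((W.map (Int.castRingHom ℚ))⁄(AlgebraicClosure ℚ)).Point)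
    (hQfix : ∀ σ : AlgebraicClosure ℚ ≃ₐ[ℚ] AlgebraicClosure ℚ, σ • Q = Q)
    (hQord : addOrderOf Q = p)
    {ℓ : ℕ} (hℓ : ℓ.Prime) (hℓp : ℓ ≠ p) (hℓΔ : (ℓ : ℤ) ∣ W.Δ) (hℓc₄ : ¬ (ℓ : ℤ) ∣ W.c₄)
    (A : ValuationSubring (AlgebraicClosure ℚ)) (hA : A.LiesOverPrime ℓ)
    (h0 : W.InZeroComponentAt A Q) : ¬ ℓ ∣ p - 1 := by
  have h := mzb_pm_lt hp hp5 W Q hQfix hQord hℓ hℓp hℓΔ hℓc₄ A hA h0
  intro hd
  have := Nat.le_of_dvd (by omega) hd
  omega

end Main

end Fermat.Agent.MZ
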