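/-
MAZUR project, node **[MZ-B]** (owner helper16).  Prefix `mzb_fin_` / `mzb_`.  THE ASSEMBLY OF [MZ-B].

`mzb_main : mza_stmt → mzb_CD_stmt C → mzt_C_stmt C → mzt_AB_stmt C`:
the modular point `x` of `(W, ⟨Q⟩)` ([MZ-A]: `j(x) = j0`, `U(x) = U0`), the cusp data ([MZ-C']) and
the cuspidal class give the seam `mzt_AB_stmt` of TOP.

* elliptic side (`Ell.lean`): `v_A(j0) > 1`, `v_A(U0) > 1` when `Q ∈ E⁰(A)`;
  `v_B(U0 / j0^(p-1)) < 1` when `Q ∉ E⁰(B)`.
* modular side (`Dict.lean`): `mzb_dc_dir1`, `mzb_dc_dir2`, `mzb_dc_unique`.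
* `r_A(0) ≠ r_A(∞)`: otherwise the cuspidal class `c`, killed by `p - 1` with `ℓ ∤ p - 1`
  (`mzb_pm_not_dvd`), is in the kernel of reduction, hence `0` by S18.
* Galois-fixedness of `x`: `σ x` is another place with the same values of `j` and `U`, hence with
  the same reduction `r_A(∞)`; uniqueness.
-/
import Mathlib
import Fermat.Agent.MZ.B.Dict
import Fermat.Agent.MZ.B.Ell
import Fermat.Agent.MZ.B.PmOne
import Fermat.Agent.MZ.Top.Asm

set_option autoImplicit false
set_option linter.unusedSectionVars false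

noncomputable section

open ModularCurve AlgebraicCurve
open Fermat.Agent.S24 Fermat.Agent.JT3

namespace Fermat.Agent.MZ

local notation "GQ" => (AlgebraicClosure ℚ ≃ₐ[ℚ] AlgebraicClosure ℚ)
local notation "Qbar" => AlgebraicClosure ℚ

/-! ### valuations: elementary lemmas -/

section ValLemmas

variable {Γ : Type*} [LinearOrderedCommGroupWithZero Γ]

theorem mzb_fin_one_lt_of_mul_eq_one {a b : Γ} (h : a * b = 1) (hb : b < 1) : 1 < a := by
  by_contra hle
  rw [not_lt] at hle
  have h1 : a * b ≤ 1 * b := mul_le_mul_left hle b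
  rw [one_mul, h] at h1
  exact absurd hb (not_lt.mpr h1)

end ValLemmas

/-! ### orders of powers -/

section OrdPow

variable {K F : Type*} [Field K] [Field F] [Algebra K F] (P : Place K F)

theorem mzb_fin_ord_pow (f : F) (n : ℕ) : P.ord (f ^ n) = n * P.ord f := by
  rw [← zpow_natCast, P.ord_zpow]

end OrdPow

/-! ### the Galois action on `j`, `U` and on places -/

section Galois

set_option synthInstance.maxHeartbeats 400000
set_option maxHeartbeats 1000000

variable {p : ℕ} [NeZero p]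

theorem mzb_fin_smul_jB (σ : GQ) :
    arithmeticGalois (modularFunctionFieldFull p) σ • mzb_jB p = mzb_jB p := by
  apply Subtype.ext
  rw [coe_arithmeticGalois_smul, mzb_coe_jB, coeffMap_jqModC]

theorem mzb_fin_smul_UB (hU : mzb_Umem p) (σ : GQ) :
    arithmeticGalois (modularFunctionFieldFull p) σ • mzb_UB p hU = mzb_UB p hU := by
  apply Subtype.ext
  rw [coe_arithmeticGalois_smul, mzb_coe_UB, mzb_qi_coeffMap_U]

/-- a place `x` and its conjugate `σ x` have the same order at `f - c` when `f` and `c` are fixed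
by `σ`. -/
theorem mzb_fin_ord_smul_sub (σ : GQ) (x : Place Qbar (modularFunctionFieldBar p))
    (f : modularFunctionFieldBar p) (c : Qbar)
    (hf : arithmeticGalois (modularFunctionFieldFull p) σ • f = f) (hc : σ c = c) :
    (arithmeticGalois (modularFunctionFieldFull p) σ • x).ord
        (f - algebraMap Qbar (modularFunctionFieldBar p) c) =
      x.ord (f - algebraMap Qbar (modularFunctionFieldBar p) c) := by
  have h1 : arithmeticGalois (modularFunctionFieldFull p) σ •
      (f - algebraMap Qbar (modularFunctionFieldBar p) c) =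
      f - algebraMap Qbar (modularFunctionFieldBar p) c := by
    rw [smul_sub, hf, SemilinearAut.smul_algebraMap, baseAut_arithmeticGalois]
    congr 2
  conv_lhs => rw [← h1]
  exact SemilinearAut.ord_smul _ x _

end Galois

/-! ### the assembly -/

section Main

set_option synthInstance.maxHeartbeats 400000
set_option maxHeartbeats 2000000

/-- **[MZ-B]**: the modular point and the cusp data give the seam `mzt_AB_stmt` of TOP. -/
theorem mzb_main (C : ∀ p : ℕ, mzt_Cusps p) (hA : mza_stmt) (hCD : mzb_CD_stmt C)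
    (hC : mzt_C_stmt C) : mzt_AB_stmt C := by
  intro p _ hp hp' W hΔ Q hQfix hQord ℓ hℓ hℓp hℓΔ hℓc₄ A hAℓ hin
  -- `p ≥ 11`
  have hp11 : 11 ≤ p := by
    have h2 := hp.two_le
    have hp'' := hp'
    simp only [Finset.mem_insert, Finset.mem_singleton, not_or] at hp''
    obtain ⟨n2, n3, n5, n7, n13⟩ := hp''
    by_contra hlt
    push Not at hlt
    interval_cases p <;> first | omega | (exact absurd hp (by decide))
  have hp2 : p ≠ 2 := by omega
  have hp1 : p - 1 ≠ 0 := by omega
  obtain ⟨hU, hpolesU, hzerosU, hpolesj, hinfj, hinfU, hzeroj, hzeroU⟩ := hCD p hp hp'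
  obtain ⟨-, -, -, hpc, hc0⟩ := hC p hp hp'
  obtain ⟨x, hxj, hxU⟩ := hA p hp hp2 hU W hΔ Q hQord
  -- the valuations at `A`
  obtain ⟨hj0A, hΔA⟩ := mzb_el_j0_val hℓ hAℓ hΔ hℓΔ hℓc₄
  have hU0A := mzb_el_val_in hp hQord hℓ hℓp hAℓ hΔ hp2 hin
  have hvj0 : 1 < A.valuation (mzb_el_j0 W) := mzb_fin_one_lt_of_mul_eq_one hj0A hΔA
  have hvU0 : 1 < A.valuation (mzb_el_U0 W p Q) :=
    mzb_fin_one_lt_of_mul_eq_one hU0A (pow_lt_one' hΔA hp1)
  refine ⟨x, ?_, fun h => mzb_dc_dir1 hU h hpolesU hvU0 hxU, ?_⟩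
  · -- Galois-fixedness
    intro σ
    have hℓNp : ¬ ℓ ∣ p := fun h => hℓp ((Nat.prime_dvd_prime_iff_eq hℓ hp).mp h)
    have hE : ReductionInputsModL A p := rpw_nodeE p ℓ hℓ hℓNp A hAℓ
    have hne : placeReductionModL hE (C p).zero ≠ placeReductionModL hE (C p).inf := by
      intro heq
      have h0 : reductionModL A p (mzt_c p (C p)) = 0 :=
        mzt_red_cls_eq_zero p hE (C p).zero (C p).inf heq
      have : Fact ℓ.Prime := ⟨hℓ⟩
      have hℓp1 : ¬ ℓ ∣ p - 1 :=
        mzb_pm_not_dvd hp (by omega) W Q hQfix hQord hℓ hℓp hℓΔ hℓc₄ A hAℓ hin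
      exact hc0 (Fermat.Agent.S18.result p hℓNp A hAℓ hE (p - 1) hℓp1 _ hpc h0)
    have hσj0 : σ (mzb_el_j0 W) = mzb_el_j0 W := by
      rw [← mzb_el_j0_rational, σ.commutes]
    have hσU0 : σ (mzb_el_U0 W p Q) = mzb_el_U0 W p Q := mzb_el_U0_fixed W p Q hQfix σ
    have hgj : 0 < (arithmeticGalois (modularFunctionFieldFull p) σ • x).ord
        (mzb_jB p - algebraMap Qbar (modularFunctionFieldBar p) (mzb_el_j0 W)) := by
      rw [mzb_fin_ord_smul_sub σ x _ _ (mzb_fin_smul_jB σ) hσj0]; exact hxj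
    have hgU : 0 < (arithmeticGalois (modularFunctionFieldFull p) σ • x).ord
        (mzb_UB p hU - algebraMap Qbar (modularFunctionFieldBar p) (mzb_el_U0 W p Q)) := by
      rw [mzb_fin_ord_smul_sub σ x _ _ (mzb_fin_smul_UB hU σ) hσU0]; exact hxU
    exact mzb_dc_unique hE hpolesj hinfj hne hvj0 hgj hxj
      (mzb_dc_dir1 hU hE hpolesU hvU0 hgU) (mzb_dc_dir1 hU hE hpolesU hvU0 hxU)
  · -- the dictionary at `B ∣ s`, `Q ∉ E⁰(B)`
    intro s hs hsp hsΔ hsc₄ B hB hout h
    obtain ⟨hj0B, hΔB⟩ := mzb_el_j0_val hs hB hΔ hsΔ hsc₄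
    have hU0B := mzb_el_val_out hp hQord hs hsp hB hΔ hout
    by_cases hU0 : mzb_el_U0 W p Q = 0
    · have hx0 : x = (C p).zero := hzerosU x (by rwa [hU0, map_zero, sub_zero] at hxU)
      rw [hx0]
    · have hj0ne : mzb_el_j0 W ≠ 0 := by
        intro h0
        rw [h0, map_zero, zero_mul] at hj0B
        exact zero_ne_one hj0B
      have hvΔ : B.valuation ((W.Δ : ℤ) : Qbar) = (B.valuation (mzb_el_j0 W))⁻¹ :=
        eq_inv_of_mul_eq_one_right hj0B
      set c0 : Qbar := mzb_el_U0 W p Q * ((mzb_el_j0 W)⁻¹) ^ (p - 1) with hc0def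
      have hc0ne : c0 ≠ 0 := mul_ne_zero hU0 (pow_ne_zero _ (inv_ne_zero hj0ne))
      have hvc0 : B.valuation c0 < 1 := by
        rw [hc0def, map_mul, map_pow, map_inv₀, ← hvΔ]
        exact hU0B
      -- the value of `g` at `x`
      have hval : rp_HasValue x (mzb_gB hU) c0 :=
        (mzb_dc_hasValue_of_ord_pos x hxU).mul
          (mzb_dc_hasValue_pow x ((mzb_dc_hasValue_of_ord_pos x hxj).inv hj0ne) (p - 1))
      -- orders of `g`
      have hordg : ∀ P : Place Qbar (modularFunctionFieldBar p),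
          P.ord (mzb_gB hU) = P.ord (mzb_UB p hU) - ((p - 1 : ℕ) : ℤ) * P.ord (mzb_jB p) := by
        intro P
        unfold mzb_gB
        rw [P.ord_mul (mzb_dc_UB_ne_zero hU) (pow_ne_zero _ (inv_ne_zero mzb_dc_jB_ne_zero)),
          mzb_fin_ord_pow, P.ord_inv]
        ring
      have hp1' : (0 : ℤ) < ((p - 1 : ℕ) : ℤ) := by omega
      have hcast : ((p - 1 : ℕ) : ℤ) = (p : ℤ) - 1 := by omega
      have hzero_g : 0 < (C p).zero.ord (mzb_gB hU) := by
        rw [hordg]
        have := mul_neg_of_pos_of_neg hp1' hzeroj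
        omega
      have hgne : mzb_gB hU - algebraMap Qbar (modularFunctionFieldBar p) c0 ≠ 0 := by
        intro h0
        rw [sub_eq_zero.mp h0, hw_ord_algebraMap] at hzero_g
        exact lt_irrefl _ hzero_g
      have hxg := mzb_dc_ord_pos_of_hasValue x hval hgne
      have hzeros_g : ∀ P : Place Qbar (modularFunctionFieldBar p),
          0 < P.ord (mzb_gB hU) → P = (C p).zero := by
        intro P hP
        by_contra hPz
        have h1 : ¬ 0 < P.ord (mzb_UB p hU) := fun h => hPz (hzerosU P h)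
        rw [hordg] at hP
        have h2 : P.ord (mzb_jB p) < 0 := by
          by_contra hge
          rw [not_lt] at hge
          have := mul_nonneg hp1'.le hge
          omega
        rcases hpolesj P h2 with rfl | rfl
        · rw [hinfj, hinfU, hcast] at hP
          omega
        · exact hPz rfl
      exact mzb_dc_dir2 hU h hzeros_g hc0ne hvc0 hxg

end Main

end Fermat.Agent.MZ
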