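/-
MAZUR project, node **[MZ-B]** (owner helper16).  Prefix `mzb_`.  ADAPTERS FOR TOP.

* `mzb_PM1 : mzt_PM1_stmt`                       (the seam (PM1) of TOP, closed: `mzb_pm_main`);
* `mzb_S15 C hC hA hCD hRH hF`                   S15 from the remaining seams:
  `mzt_C_stmt C` ([MZ-C']), `mza_stmt` ([MZ-A]), `mzb_CD_stmt C` ([MZ-C'] cusp data),
  `mzt_RHw_stmt` ([MZ-RH]), `mzt_F_stmt C` ((F*)).
-/
import Mathlib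
import Fermat.Agent.MZ.B.Final

set_option autoImplicit false

noncomputable section

open WeierstrassCurve WeierstrassCurve.Affine
open ModularCurve AlgebraicCurve

namespace Fermat.Agent.MZ

/-- the seam **(PM1)** of TOP. -/
theorem mzb_PM1 : mzt_PM1_stmt := by
  intro p hp W _ Q hQfix hQord ℓ hℓ hℓp hℓΔ hℓc₄ A hA h0
  exact mzb_pm_main hp W Q hQfix hQord hℓ hℓp hℓΔ hℓc₄ A hA h0

/-- **S15 from the remaining seams** (`mzt_AB_stmt` and `mzt_PM1_stmt` discharged by [MZ-B]). -/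
theorem mzb_S15 (C : ∀ p : ℕ, mzt_Cusps p)
    (hC : mzt_C_stmt C) (hA : mza_stmt) (hCD : mzb_CD_stmt C) (hRH : mzt_RHw_stmt)
    (hF : mzt_F_stmt C)
    {p : ℕ} (hp : p.Prime) (hp' : p ∉ ({2, 3, 5, 7, 13} : Finset ℕ))
    (W : WeierstrassCurve ℤ) (hΔ : W.Δ ≠ 0)
    (Q : ((W.map (Int.castRingHom ℚ))⁄(AlgebraicClosure ℚ)).Point)
    (hQfix : ∀ σ : AlgebraicClosure ℚ ≃ₐ[ℚ] AlgebraicClosure ℚ, σ • Q = Q)
    (hQord : addOrderOf Q = p)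
    (h2Δ : (2 : ℤ) ∣ W.Δ) (h2c₄ : ¬ (2 : ℤ) ∣ W.c₄)
    (h2 : ∀ A : ValuationSubring (AlgebraicClosure ℚ), A.LiesOverPrime 2 →
      ¬ W.InZeroComponentAt A Q)
    (h3Δ : (3 : ℤ) ∣ W.Δ) (h3c₄ : ¬ (3 : ℤ) ∣ W.c₄)
    (h3 : ∀ A : ValuationSubring (AlgebraicClosure ℚ), A.LiesOverPrime 3 →
      ¬ W.InZeroComponentAt A Q)
    {ℓ : ℕ} (hℓ : ℓ.Prime) (hℓp : ℓ ≠ p) (hℓΔ : (ℓ : ℤ) ∣ W.Δ) (hℓc₄ : ¬ (ℓ : ℤ) ∣ W.c₄)
    (A : ValuationSubring (AlgebraicClosure ℚ)) (hA' : A.LiesOverPrime ℓ) :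
    ¬ W.InZeroComponentAt A Q :=
  mzt_S15 C hC (mzb_main C hA hCD hC) mzb_PM1 hRH hF hp hp' W hΔ Q hQfix hQord h2Δ h2c₄ h2
    h3Δ h3c₄ h3 hℓ hℓp hℓΔ hℓc₄ A hA'

end Fermat.Agent.MZ
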